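import Mathlib.RingTheory.OrderOfVanishing.Basic
import Mathlib.RingTheory.DiscreteValuationRing.Basic
import Mathlib.LinearAlgebra.FreeModule.PID
import Mathlib.LinearAlgebra.Determinant
import Mathlib.LinearAlgebra.Matrix.ToLin
import Mathlib.LinearAlgebra.Matrix.Nondegenerate
import Mathlib.LinearAlgebra.Quotient.Pi
import Mathlib.LinearAlgebra.Dimension.RankNullity
import Mathlib.LinearAlgebra.FreeModule.Finite.Quotient

/-!
The length of the cokernel of an injective endomorphism of a finite free module over a discrete
valuation ring is the order of its determinant.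
-/

set_option autoImplicit false

noncomputable section

namespace Fermat.Agent.NumCrit

universe u v

variable {O : Type u} [CommRing O]

theorem length_quotient_span_singleton (c : O) :
    Module.length O (O ⧸ Ideal.span {c}) = Ring.ord O c := rfl

variable [IsDomain O] [IsDiscreteValuationRing O]

theorem ord_ne_top {c : O} (hc : c ≠ 0) : Ring.ord O c ≠ ⊤ := by
  obtain ⟨ϖ, hϖ⟩ := IsDiscreteValuationRing.exists_irreducible O
  obtain ⟨n, hn⟩ := IsDiscreteValuationRing.associated_pow_irreducible hc hϖ
  rw [Ring.ord_eq_of_associated hn, ← length_quotient_span_singleton,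
    ← Ideal.span_singleton_pow, ← hϖ.maximalIdeal_eq,
    IsDiscreteValuationRing.length_quotient_pow_maximalIdeal]
  exact ENat.natCast_ne_top n

theorem associated_of_dvd_of_ord_le {a b : O} (hb : b ≠ 0) (hab : a ∣ b)
    (h : Ring.ord O b ≤ Ring.ord O a) : Associated a b := by
  obtain ⟨c, rfl⟩ := hab
  have ha : a ≠ 0 := left_ne_zero_of_mul hb
  rw [Ring.ord_mul' O (mem_nonZeroDivisors_of_ne_zero ha)] at h
  have h0 : Ring.ord O c = 0 := by
    have := WithTop.le_of_add_le_add_left (ord_ne_top ha) (h.trans_eq (add_zero _).symm)
    exact nonpos_iff_eq_zero.1 this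
  have : IsUnit c := by
    rw [Ring.ord, Module.length_eq_zero_iff, Submodule.Quotient.subsingleton_iff,
      Ideal.span_singleton_eq_top] at h0
    exact h0
  exact (associated_mul_unit_right a c this)

omit [IsDiscreteValuationRing O] in
theorem ord_prod {ι : Type*} (s : Finset ι) {a : ι → O} (ha : ∀ i ∈ s, a i ≠ 0) :
    Ring.ord O (∏ i ∈ s, a i) = ∑ i ∈ s, Ring.ord O (a i) := by
  induction s using Finset.cons_induction with
  | empty => simp
  | cons i s hi ih =>
    rw [Finset.prod_cons, Finset.sum_cons,
      Ring.ord_mul' O (mem_nonZeroDivisors_of_ne_zero (ha i (Finset.mem_cons_self i s))),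
      ih fun j hj => ha j (Finset.mem_cons_of_mem hj)]

/-- Length of the cokernel of an injective endomorphism. -/
theorem length_quotient_range_eq_ord_det {M : Type v} [AddCommGroup M] [Module O M]
    [Module.Finite O M] [Module.Free O M] (f : M →ₗ[O] M) (hf : Function.Injective f) :
    Module.length O (M ⧸ LinearMap.range f) = Ring.ord O (LinearMap.det f) := by
  classical
  let ι := Module.Free.ChooseBasisIndex O M
  let b : Module.Basis ι O M := Module.Free.chooseBasis O M
  have hrank : Module.finrank O (LinearMap.range f) = Module.finrank O M :=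
    (LinearEquiv.ofInjective f hf).finrank_eq.symm
  obtain ⟨b', a, ab', hab⟩ := Submodule.exists_smith_normal_form_of_rank_eq b hrank
  have ha : ∀ i, a i ≠ 0 := fun i h0 => ab'.ne_zero i (Subtype.ext (by rw [hab, h0, zero_smul]; rfl))
  -- `g` is the diagonal map with image `range f`
  let g : M →ₗ[O] M := b'.constr O fun i => a i • b' i
  have hgi : ∀ i, g (b' i) = a i • b' i := fun i => b'.constr_basis O _ i
  have hgmat : LinearMap.toMatrix b' b' g = Matrix.diagonal a := by
    ext i j
    rw [LinearMap.toMatrix_apply, hgi, map_smul, Finsupp.smul_apply, Module.Basis.repr_self,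
      Finsupp.single_apply, Matrix.diagonal_apply]
    rcases eq_or_ne i j with rfl | hij
    · simp
    · simp [hij, Ne.symm hij]
  have hg : (LinearMap.det g) = ∏ i, a i := by
    rw [← LinearMap.det_toMatrix b', hgmat, Matrix.det_diagonal]
  have hrange : LinearMap.range g = LinearMap.range f := by
    refine (b'.constr_range O).trans (le_antisymm ?_ ?_)
    · rw [Submodule.span_le]
      rintro _ ⟨i, rfl⟩
      simp only [← hab]
      exact (ab' i).2
    · intro x hx
      have hx' := congrArg Subtype.val (ab'.sum_repr ⟨x, hx⟩)
      simp only at hx'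
      rw [← hx', Submodule.coe_sum]
      refine Submodule.sum_mem _ fun i _ => ?_
      rw [Submodule.coe_smul, hab]
      exact Submodule.smul_mem _ _ (Submodule.subset_span ⟨i, rfl⟩)
  have hginj : Function.Injective g := by
    refine (injective_iff_map_eq_zero g).2 fun x hx => ?_
    rw [← b'.sum_repr x, map_sum] at hx
    simp only [map_smul, hgi, smul_smul] at hx
    have h0 := Fintype.linearIndependent_iff.1 b'.linearIndependent _ hx
    exact b'.ext_elem fun i => by
      simpa [ha i] using h0 i
  -- `f` is `g` composed with an automorphism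
  let e : M ≃ₗ[O] M := (LinearEquiv.ofInjective f hf).trans
    ((LinearEquiv.ofEq _ _ hrange.symm).trans (LinearEquiv.ofInjective g hginj).symm)
  have hfe : f = g ∘ₗ (e : M →ₗ[O] M) := LinearMap.ext fun x => by
    have h1 : ((LinearEquiv.ofInjective g hginj) (e x) : M) = f x := by simp [e]
    exact h1.symm
  have hdet : Associated (∏ i, a i) (LinearMap.det f) := by
    rw [hfe, LinearMap.det_comp, hg]
    exact associated_mul_unit_right _ _ e.isUnit_det'
  rw [← Ring.ord_eq_of_associated hdet, ord_prod _ fun i _ => ha i]
  let p : ι → Submodule O O := fun i => Ideal.span {a i}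
  have hmap : (LinearMap.range f).map (b'.equivFun : M →ₗ[O] ι → O) = Submodule.pi Set.univ p := by
    ext v
    simp only [Submodule.mem_map, ← hrange, Submodule.mem_pi, Set.mem_univ, true_implies, p,
      Ideal.mem_span_singleton]
    constructor
    · rintro ⟨_, ⟨x, rfl⟩, rfl⟩ i
      refine ⟨b'.repr x i, ?_⟩
      conv_lhs => rw [← b'.sum_repr x, map_sum]
      simp [map_sum, hgi, smul_smul, mul_comm, Finsupp.single_apply]
    · intro hv
      choose w hw using hv
      refine ⟨g (b'.equivFun.symm w), LinearMap.mem_range_self _ _, funext fun i => ?_⟩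
      rw [Module.Basis.equivFun_symm_apply, map_sum, map_sum]
      simp [hgi, smul_smul, hw i, mul_comm, Finsupp.single_apply]
  rw [((Submodule.Quotient.equiv _ _ b'.equivFun hmap).trans
    (Submodule.quotientPi p)).length_eq, Module.length_pi_of_fintype]
  rfl

/-- Matrix version: the quotient of `Oⁿ` by the row space of `A`. -/
theorem length_quotient_rows_eq_ord_det {n : Type} [Fintype n] [DecidableEq n]
    (A : Matrix n n O) (hA : A.det ≠ 0) :
    Module.length O ((n → O) ⧸ Submodule.span O (Set.range fun i => A i)) = Ring.ord O A.det := by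
  have hinj : Function.Injective (Matrix.vecMulLinear A) :=
    (injective_iff_map_eq_zero _).2 fun v hv => Matrix.eq_zero_of_vecMul_eq_zero hA hv
  have hrange : LinearMap.range (Matrix.vecMulLinear A) =
      Submodule.span O (Set.range fun i => A i) := range_vecMulLinear A
  rw [← hrange, length_quotient_range_eq_ord_det _ hinj]
  congr 1
  rw [← Matrix.det_transpose A, ← LinearMap.det_toLin']
  congr 1
  refine LinearMap.ext fun x => ?_
  simp [Matrix.toLin'_apply, Matrix.mulVec_transpose]

end Fermat.Agent.NumCrit
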