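import Fermat.Agent.NumCrit.Defs
import Fermat.Agent.NumCrit.LengthDet
import Mathlib.RingTheory.Noetherian.Basic
import Mathlib.RingTheory.PrincipalIdealDomain
import Mathlib.LinearAlgebra.Dual.Lemmas
import Mathlib.LinearAlgebra.Quotient.Pi
import Mathlib.Algebra.Module.Submodule.Pointwise

/-!
Diamond's congruence modules: comparison with the congruence ideal, free modules, and the
behaviour under a change of level.
-/

set_option autoImplicit false

noncomputable section

namespace Fermat.Agent.NumCrit

section General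

variable {O N : Type*} [CommRing O] [AddCommGroup N] [Module O N]

/-- Multiples of `c`. -/
def smulRange (c : O) (N : Type*) [AddCommGroup N] [Module O N] : Submodule O N :=
  LinearMap.range (c • (LinearMap.id : N →ₗ[O] N))

theorem mem_smulRange {c : O} {x : N} : x ∈ smulRange c N ↔ ∃ y, c • y = x := by
  simp [smulRange]

theorem length_quotient_smulRange [Module.Finite O N] [Module.Free O N] [Nontrivial O] (c : O) :
    Module.length O (N ⧸ smulRange c N) = Module.finrank O N * Ring.ord O c := by
  classical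
  let b := Module.finBasis O N
  let p : Fin (Module.finrank O N) → Submodule O O := fun _ => Ideal.span {c}
  have hmap : (smulRange c N).map (b.equivFun : N →ₗ[O] Fin (Module.finrank O N) → O) =
      Submodule.pi Set.univ p := by
    ext v
    simp only [Submodule.mem_map, mem_smulRange, Submodule.mem_pi, Set.mem_univ, true_implies, p,
      Ideal.mem_span_singleton]
    constructor
    · rintro ⟨_, ⟨y, rfl⟩, rfl⟩ i
      exact ⟨b.repr y i, by simp⟩
    · intro hv
      choose w hw using hv
      exact ⟨_, ⟨b.equivFun.symm w, rfl⟩, funext fun i => by simp [hw i, Finsupp.single_apply]⟩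
  rw [((Submodule.Quotient.equiv _ _ b.equivFun hmap).trans (Submodule.quotientPi p)).length_eq,
    Module.length_pi_of_fintype]
  change ∑ _i : Fin (Module.finrank O N), Ring.ord O c = _
  simp

theorem length_quotient_range_smul_comp {L D : Type*} [AddCommGroup L] [Module O L]
    [AddCommGroup D] [Module O D] (g : L →ₗ[O] D) (hg : Function.Injective g) (c : O) :
    Module.length O (D ⧸ LinearMap.range (c • g)) =
      Module.length O (L ⧸ smulRange c L) + Module.length O (D ⧸ LinearMap.range g) := by
  have hmap : (smulRange c L).map g = LinearMap.range (c • g) := by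
    rw [smulRange, ← LinearMap.range_comp, LinearMap.comp_smul, LinearMap.comp_id]
  have hle : LinearMap.range (c • g) ≤ LinearMap.range g := hmap ▸ LinearMap.map_le_range
  let j : (L ⧸ smulRange c L) →ₗ[O] (D ⧸ LinearMap.range (c • g)) :=
    Submodule.mapQ _ _ g (by rw [← hmap]; exact Submodule.le_comap_map _ _)
  have hj : Function.Injective j := by
    rw [injective_iff_map_eq_zero]
    rintro ⟨l⟩ hl
    have h1 : g l ∈ (smulRange c L).map g := by
      rw [hmap]; exact (Submodule.Quotient.mk_eq_zero _).1 hl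
    obtain ⟨l', hl', hll'⟩ := h1
    exact (Submodule.Quotient.mk_eq_zero _).2 (hg hll' ▸ hl')
  refine Module.length_eq_add_of_exact j (Submodule.factor hle) hj
    (Submodule.factor_surjective hle) fun x => ⟨?_, ?_⟩
  · obtain ⟨d, rfl⟩ := Submodule.Quotient.mk_surjective _ x
    intro hd
    obtain ⟨l, hl⟩ := (Submodule.Quotient.mk_eq_zero (LinearMap.range g)).1 hd
    exact ⟨Submodule.Quotient.mk l, congrArg Submodule.Quotient.mk (show g l = d from hl)⟩
  · rintro ⟨⟨l⟩, rfl⟩
    exact (Submodule.Quotient.mk_eq_zero (LinearMap.range g)).2 ⟨l, rfl⟩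

end General

variable {O T M : Type*} [CommRing O] [IsDomain O] [IsDiscreteValuationRing O]
  [CommRing T] [Algebra O T] [AddCommGroup M] [Module O M] [Module T M] [IsScalarTower O T M]
  [Module.Finite O M] [Module.Free O M]

omit [IsDomain O] [IsDiscreteValuationRing O] [Module.Finite O M] [Module.Free O M] in
theorem smul_mem_eigenSub {π : T →ₐ[O] O} {t : T} (ht : ∀ y : T, π y = 0 → t * y = 0) (m : M) :
    t • m ∈ eigenSub π M :=
  mem_eigenSub.2 fun y hy => by rw [← mul_smul, mul_comm, ht y hy, zero_smul]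

omit [IsDomain O] [IsDiscreteValuationRing O] [Module.Finite O M] [Module.Free O M] in
theorem smulRange_le_range_gram (π : T →ₐ[O] O) (B : M →ₗ[O] M →ₗ[O] O)
    (hadj : ∀ t : T, (∀ y : T, π y = 0 → t * y = 0) → ∀ m, ∀ l ∈ eigenSub π M,
      B (t • m) l = B m (t • l))
    (hsurj : Function.Surjective fun m => (B m).comp (eigenSub π M).subtype)
    {c : O} (hc : c ∈ congIdeal π) :
    smulRange c (Module.Dual O (eigenSub π M)) ≤ LinearMap.range (gram B (eigenSub π M)) := by
  rintro _ ⟨φ, rfl⟩
  obtain ⟨t, ht, rfl⟩ := mem_congIdeal.1 hc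
  obtain ⟨m, hm⟩ := hsurj φ
  refine ⟨⟨t • m, smul_mem_eigenSub ht m⟩, LinearMap.ext fun l => ?_⟩
  change B (t • m) (l : M) = π t • φ l
  rw [hadj t ht m l l.2, smul_eq_of_mem_eigenSub l.2, map_smul, ← hm]
  rfl

theorem length_congModule_le (π : T →ₐ[O] O) (B : M →ₗ[O] M →ₗ[O] O)
    (hadj : ∀ t : T, (∀ y : T, π y = 0 → t * y = 0) → ∀ m, ∀ l ∈ eigenSub π M,
      B (t • m) l = B m (t • l))
    (hsurj : Function.Surjective fun m => (B m).comp (eigenSub π M).subtype) :
    Module.length O (CongModule B (eigenSub π M)) ≤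
      Module.finrank O (eigenSub π M) * Module.length O (O ⧸ congIdeal π) := by
  obtain ⟨c, hc⟩ := IsPrincipalIdealRing.principal (congIdeal π)
  replace hc : congIdeal π = Ideal.span {c} := hc
  have h := smulRange_le_range_gram π B hadj hsurj (hc ▸ Ideal.mem_span_singleton_self c)
  calc Module.length O (CongModule B (eigenSub π M))
      ≤ Module.length O (Module.Dual O (eigenSub π M) ⧸ smulRange c _) :=
        Module.length_le_of_surjective (Submodule.factor h) (Submodule.factor_surjective h)
    _ = _ := by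
      rw [length_quotient_smulRange, hc, length_quotient_span_singleton,
        LinearEquiv.finrank_eq (Module.finBasis O (eigenSub π M)).toDualEquiv]

omit [Module.Finite O M] [Module.Free O M] in
theorem finrank_eigenSub_of_free [Module.Finite O T] [Module.Free O T] {d : ℕ}
    (b : Module.Basis (Fin d) T M) (π : T →ₐ[O] O) {c : O} (hc : congIdeal π = Ideal.span {c})
    (hc0 : c ≠ 0) {t : T} (ht : ∀ y : T, π y = 0 → t * y = 0) (htc : π t = c) :
    Module.finrank O (eigenSub π M) = d ∧ ∀ l ∈ eigenSub π M, ∃ m : M, t • m = l := by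
  classical
  have hη : congIdeal π ≠ ⊥ := by
    rw [hc, Ne, Ideal.span_singleton_eq_bot]; exact hc0
  have hall : ∀ l ∈ eigenSub π M, ∃ a : Fin d → O, l = ∑ i, a i • t • b i := by
    intro l hl
    have hi : ∀ i, ∀ y : T, π y = 0 → b.repr l i * y = 0 := fun i y hy => by
      have h1 := congrArg (fun m => b.repr m i) (mem_eigenSub.1 hl y hy)
      simpa [mul_comm] using h1
    choose a ha using fun i => Ideal.mem_span_singleton'.1 (hc ▸ mem_congIdeal.2 ⟨_, hi i, rfl⟩ :
      π (b.repr l i) ∈ Ideal.span {c})
    refine ⟨a, ?_⟩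
    conv_lhs => rw [← b.sum_repr l]
    refine Finset.sum_congr rfl fun i _ => ?_
    have h2 : b.repr l i - a i • t = 0 :=
      Fermat.Agent.NumCrit.eq_zero_of_ann π hη
        (fun y hy => by rw [sub_mul, hi i y hy, smul_mul_assoc, ht y hy, smul_zero, sub_zero])
        (by rw [map_sub, map_smul, htc, smul_eq_mul, ha, sub_self])
    rw [sub_eq_zero.1 h2, smul_assoc]
  let F : (Fin d → O) →ₗ[O] eigenSub π M :=
    Fintype.linearCombination O fun i => (⟨t • b i, smul_mem_eigenSub ht _⟩ : eigenSub π M)
  have hF : Function.Bijective F := by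
    refine ⟨(injective_iff_map_eq_zero F).2 fun a ha => ?_, fun l => ?_⟩
    · have h1 : ∑ i, (a i • t) • b i = 0 := by
        have h2 := congrArg Subtype.val ha
        simp only [F, Fintype.linearCombination_apply, Submodule.coe_sum,
          Submodule.coe_smul_of_tower, ZeroMemClass.coe_zero] at h2
        simpa only [smul_assoc] using h2
      funext i
      have h3 := congrArg π (Fintype.linearIndependent_iff.1 b.linearIndependent _ h1 i)
      rw [map_smul, htc, map_zero, smul_eq_mul] at h3
      exact (mul_eq_zero.1 h3).resolve_right hc0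
    · obtain ⟨a, ha⟩ := hall l l.2
      refine ⟨a, Subtype.ext ?_⟩
      simp [F, Fintype.linearCombination_apply, ← ha]
  refine ⟨?_, fun l hl => ?_⟩
  · rw [← (LinearEquiv.ofBijective F hF).finrank_eq, Module.finrank_fin_fun]
  · obtain ⟨a, rfl⟩ := hall l hl
    exact ⟨∑ i, a i • b i, by simp [Finset.smul_sum, smul_comm t]⟩

theorem length_congModule_eq_of_free [Module.Finite O T] [Module.Free O T] {d : ℕ}
    (b : Module.Basis (Fin d) T M) (π : T →ₐ[O] O) (hη : congIdeal π ≠ ⊥)
    (B : M →ₗ[O] M →ₗ[O] O)
    (hadj : ∀ t : T, (∀ y : T, π y = 0 → t * y = 0) → ∀ m, ∀ l ∈ eigenSub π M,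
      B (t • m) l = B m (t • l))
    (hsurj : Function.Surjective fun m => (B m).comp (eigenSub π M).subtype) :
    Module.length O (CongModule B (eigenSub π M)) =
      d * Module.length O (O ⧸ congIdeal π) := by
  obtain ⟨c, hc⟩ := IsPrincipalIdealRing.principal (congIdeal π)
  replace hc : congIdeal π = Ideal.span {c} := hc
  have hc0 : c ≠ 0 := fun h => hη (by rw [hc, h, Ideal.span_singleton_zero])
  have hmem : c ∈ congIdeal π := hc ▸ Ideal.mem_span_singleton_self c
  obtain ⟨t, ht, htc⟩ := mem_congIdeal.1 hmem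
  obtain ⟨hd, hall⟩ := finrank_eigenSub_of_free b π hc hc0 ht htc
  have heq : LinearMap.range (gram B (eigenSub π M)) = smulRange c _ := by
    refine le_antisymm ?_ (smulRange_le_range_gram π B hadj hsurj hmem)
    rintro _ ⟨l, rfl⟩
    obtain ⟨m, hm⟩ := hall l l.2
    refine mem_smulRange.2 ⟨(B m).comp (eigenSub π M).subtype, LinearMap.ext fun l' => ?_⟩
    change c • B m (l' : M) = B (l : M) (l' : M)
    rw [← hm, hadj t ht m l' l'.2, smul_eq_of_mem_eigenSub l'.2, htc, map_smul]
  change Module.length O (_ ⧸ LinearMap.range (gram B (eigenSub π M))) = _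
  rw [heq, length_quotient_smulRange, hc, length_quotient_span_singleton,
    ← LinearEquiv.finrank_eq (Module.finBasis O (eigenSub π M)).toDualEquiv, hd]

theorem length_congModule_levelChange {M₁ : Type*} [AddCommGroup M₁] [Module O M₁]
    (B₀ : M →ₗ[O] M →ₗ[O] O) (B₁ : M₁ →ₗ[O] M₁ →ₗ[O] O) (L₀ : Submodule O M)
    (L₁ : Submodule O M₁) (i : M →ₗ[O] M₁) (hi : Function.Injective i)
    (hL : L₀.map i = L₁) {c : O}
    (hB : ∀ x ∈ L₀, ∀ y ∈ L₀, B₁ (i x) (i y) = c * B₀ x y)
    (hB₀ : Function.Injective (gram B₀ L₀)) :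
    Module.length O (CongModule B₁ L₁) =
      Module.length O (CongModule B₀ L₀) + Module.finrank O L₀ * Ring.ord O c := by
  subst hL
  let e : L₀ ≃ₗ[O] L₀.map i := Submodule.equivMapOfInjective i hi L₀
  have hcomp : (e.dualMap : Module.Dual O (L₀.map i) →ₗ[O] Module.Dual O L₀) ∘ₗ
      (gram B₁ (L₀.map i) ∘ₗ (e : L₀ →ₗ[O] L₀.map i)) = c • gram B₀ L₀ :=
    LinearMap.ext fun x => LinearMap.ext fun y => by
      simp [gram, e, Submodule.coe_equivMapOfInjective_apply, hB x x.2 y y.2]
  have hrange : (LinearMap.range (gram B₁ (L₀.map i))).map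
      (e.dualMap : Module.Dual O (L₀.map i) →ₗ[O] Module.Dual O L₀) =
      LinearMap.range (c • gram B₀ L₀) := by
    rw [← hcomp, LinearMap.range_comp, LinearMap.range_comp, LinearEquiv.range, Submodule.map_top]
  rw [(Submodule.Quotient.equiv _ _ e.dualMap hrange).length_eq,
    length_quotient_range_smul_comp _ hB₀, length_quotient_smulRange, add_comm]

end Fermat.Agent.NumCrit
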