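import Fermat.Agent.NumCrit.Criterion
import Mathlib.RingTheory.MvPowerSeries.Equiv
import Mathlib.RingTheory.MvPowerSeries.Inverse
import Mathlib.RingTheory.Filtration
import Mathlib.RingTheory.Polynomial.Basic

/-!
For a complete intersection finite free over `O` the cotangent space and the congruence ideal
have the same length.
-/

set_option autoImplicit false

noncomputable section

namespace Fermat.Agent.NumCrit

open IsLocalRing

universe u v

variable {O : Type u} [CommRing O] {n : ℕ}

theorem mvPowerSeries_mem_span_X_pow (N : ℕ) (p : MvPowerSeries (Fin n) O)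
    (hp : ∀ m : Fin n →₀ ℕ, m.degree < N → MvPowerSeries.coeff m p = 0) :
    p ∈ (Ideal.span (Set.range (MvPowerSeries.X : Fin n → MvPowerSeries (Fin n) O))) ^ N := by
  classical
  induction N generalizing p with
  | zero => simp
  | succ N ih =>
    let q : Fin n → MvPowerSeries (Fin n) O := fun j m =>
      if ∀ i, i < j → m i = 0 then MvPowerSeries.coeff (m + Finsupp.single j 1) p else 0
    have hq : ∀ j m, MvPowerSeries.coeff m (q j) =
        if ∀ i, i < j → m i = 0 then MvPowerSeries.coeff (m + Finsupp.single j 1) p else 0 :=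
      fun j m => rfl
    have hsum : p = ∑ j, q j * MvPowerSeries.X j := by
      ext m
      rw [map_sum]
      simp only [MvPowerSeries.X_def, MvPowerSeries.coeff_mul_monomial, mul_one]
      rcases eq_or_ne m 0 with rfl | hm
      · rw [hp 0 (by simp)]
        refine (Finset.sum_eq_zero fun j _ => if_neg fun h => ?_).symm
        simpa using Finsupp.single_le_iff.1 h
      have hne : m.support.Nonempty := Finsupp.support_nonempty_iff.2 hm
      set j₀ := m.support.min' hne with hj₀
      have hj₀m : m j₀ ≠ 0 := Finsupp.mem_support_iff.1 (m.support.min'_mem hne)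
      have hmin : ∀ i, i < j₀ → m i = 0 := fun i hi => by
        by_contra h
        exact absurd (m.support.min'_le i (Finsupp.mem_support_iff.2 h)) (not_le.2 hi)
      rw [Finset.sum_eq_single j₀]
      · have hle : Finsupp.single j₀ 1 ≤ m := Finsupp.single_le_iff.2 (Nat.one_le_iff_ne_zero.2 hj₀m)
        rw [if_pos hle, hq, if_pos fun i hi => by simp [Finsupp.tsub_apply, hmin i hi],
          tsub_add_cancel_of_le hle]
      · intro j _ hj
        rcases lt_or_gt_of_ne hj with hlt | hgt
        · refine if_neg fun h => ?_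
          have := Finsupp.single_le_iff.1 h
          have := hmin j hlt
          omega
        · split_ifs
          · rw [hq, if_neg]
            intro h
            have h1 := h j₀ hgt
            simp [Finsupp.tsub_apply, Finsupp.single_eq_of_ne hgt.ne] at h1
            exact hj₀m h1
          · rfl
      · simp
    rw [hsum, pow_succ]
    refine Submodule.sum_mem _ fun j _ => Ideal.mul_mem_mul (ih _ fun m hm => ?_)
      (Ideal.subset_span ⟨j, rfl⟩)
    rw [hq]
    split_ifs
    · refine hp _ ?_
      rw [map_add, Finsupp.degree_single]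
      omega
    · rfl

/-- The maximal ideal `(𝔪, X₁, …, Xₙ)` of the polynomial ring. -/
def maxAtZero (O : Type u) [CommRing O] [IsLocalRing O] (n : ℕ) : Ideal (MvPolynomial (Fin n) O) :=
  (maximalIdeal O).comap (MvPolynomial.constantCoeff : MvPolynomial (Fin n) O →+* O)

variable [IsDomain O] [IsDiscreteValuationRing O] {R : Type v} [CommRing R] [Algebra O R]
  [Module.Finite O R] [Module.Free O R]

omit [Module.Free O R] in
theorem length_cotangent_eq_of_completeIntersection
    (γ : MvPowerSeries (Fin n) O →ₐ[O] R) (hγ : Function.Surjective γ)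
    (g : Fin n → MvPowerSeries (Fin n) O) (hker : RingHom.ker γ = Ideal.span (Set.range g))
    (π : R →ₐ[O] O) (hη : congIdeal π ≠ ⊥) :
    Module.length O (RingHom.ker π).Cotangent = Module.length O (O ⧸ congIdeal π) := by
  classical
  have : Nontrivial R := (π : R →+* O).domain_nontrivial
  have : IsLocalRing R := IsLocalRing.of_surjective' (γ : MvPowerSeries (Fin n) O →+* R) hγ
  let a : Fin n → O := fun j => π (γ (MvPowerSeries.X j))
  let s : Fin n → (MvPowerSeries (Fin n) O) := fun j => MvPowerSeries.X j - algebraMap O (MvPowerSeries (Fin n) O) (a j)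
  have halg : ∀ c : O, algebraMap O (MvPowerSeries (Fin n) O) c = MvPowerSeries.C c := fun c => rfl
  have hsker : ∀ j, π.comp γ (s j) = 0 := fun j => by
    rw [map_sub, AlgHom.commutes]
    simp [a]
  have hkerle : RingHom.ker γ ≤ maximalIdeal (MvPowerSeries (Fin n) O) :=
    IsLocalRing.le_maximalIdeal (RingHom.ker_ne_top (γ : (MvPowerSeries (Fin n) O) →+* R))
  have hsmax : ∀ j, s j ∈ maximalIdeal (MvPowerSeries (Fin n) O) := fun j =>
    IsLocalRing.le_maximalIdeal (RingHom.ker_ne_top (π.comp γ).toRingHom) (RingHom.mem_ker.2 (hsker j))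
  have hXmax : ∀ j : Fin n, (MvPowerSeries.X j : (MvPowerSeries (Fin n) O)) ∈ maximalIdeal (MvPowerSeries (Fin n) O) := fun j => by
    rw [IsLocalRing.mem_maximalIdeal, mem_nonunits_iff, MvPowerSeries.isUnit_iff_constantCoeff]
    simp
  have ha : ∀ j, a j ∈ maximalIdeal O := fun j => by
    have h := hsmax j
    rw [IsLocalRing.mem_maximalIdeal, mem_nonunits_iff, MvPowerSeries.isUnit_iff_constantCoeff,
      ← mem_nonunits_iff, ← IsLocalRing.mem_maximalIdeal] at h
    simpa [s, halg] using h
  have hcomapγ : (maximalIdeal R).comap γ = maximalIdeal (MvPowerSeries (Fin n) O) :=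
    IsLocalRing.eq_maximalIdeal (Ideal.comap_isMaximal_of_surjective γ hγ)
  let x : Fin n → R := fun j => γ (s j)
  let ι : MvPolynomial (Fin n) O →ₐ[O] (MvPowerSeries (Fin n) O) := MvPolynomial.aeval s
  let sh : MvPolynomial (Fin n) O →ₐ[O] MvPolynomial (Fin n) O :=
    MvPolynomial.aeval fun j => MvPolynomial.X j + MvPolynomial.C (a j)
  have hψ : ∀ q, MvPolynomial.aeval x q = γ (ι q) := fun q => by
    rw [← AlgHom.comp_apply]
    simp [ι, MvPolynomial.comp_aeval, x]
  have hιsh : ∀ p, ι (sh p) = (p : (MvPowerSeries (Fin n) O)) := by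
    intro p
    induction p using MvPolynomial.induction_on with
    | C c => simp [ι, sh, halg]
    | add p q hp hq => simp [hp, hq]
    | mul_X p j hp =>
      rw [map_mul, map_mul, hp]
      simp [ι, sh, s, halg]
  have htrunc : ∀ (N : ℕ) (p : (MvPowerSeries (Fin n) O)), p - ι (sh (MvPowerSeries.truncTotal N p)) ∈
      maximalIdeal (MvPowerSeries (Fin n) O) ^ N := fun N p => by
    rw [hιsh]
    refine Ideal.pow_right_mono (Ideal.span_le.2 ?_) N (mvPowerSeries_mem_span_X_pow N _ fun m hm => ?_)
    · rintro _ ⟨j, rfl⟩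
      exact hXmax j
    · rw [map_sub, MvPolynomial.coeff_coe, MvPowerSeries.coeff_truncTotal _ hm, sub_self]
  have hmapmax : (maximalIdeal (MvPowerSeries (Fin n) O)).map γ ≤ maximalIdeal R :=
    Ideal.map_le_iff_le_comap.2 hcomapγ.ge
  have hsurj : Function.Surjective (MvPolynomial.aeval (R := O) x) := by
    intro r
    have := eq_top_of_forall_sub_mem (MvPolynomial.aeval (R := O) x).range fun N b => by
      obtain ⟨p, rfl⟩ := hγ b
      refine ⟨_, ⟨sh (MvPowerSeries.truncTotal N p), rfl⟩, ?_⟩
      have h1 := Ideal.mem_map_of_mem γ (htrunc N p)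
      rw [Ideal.map_pow] at h1
      have h2 := Ideal.pow_right_mono hmapmax N h1
      rw [map_sub, ← hψ] at h2
      exact h2
    exact (this ▸ Algebra.mem_top : r ∈ (MvPolynomial.aeval (R := O) x).range)
  have hx0 : ∀ j, π (x j) = 0 := hsker
  have hspan : Ideal.span (Set.range x) = RingHom.ker π := by
    refine le_antisymm (Ideal.span_le.2 ?_) fun r hr => ?_
    · rintro _ ⟨j, rfl⟩
      exact hx0 j
    · obtain ⟨q, rfl⟩ := hsurj r
      have h0 : MvPolynomial.constantCoeff q = 0 := by
        rw [← aug_comp_aeval π hx0]; exact hr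
      obtain ⟨c, -, hc⟩ := exists_eq_sum_mul_X (N := q.totalDegree)
        (fun m hm => Nat.lt_succ_of_le (MvPolynomial.le_totalDegree hm)) h0
      rw [hc, map_sum]
      refine Ideal.sum_mem _ fun j _ => ?_
      rw [map_mul, MvPolynomial.aeval_X]
      exact Ideal.mul_mem_left _ _ (Ideal.subset_span ⟨j, rfl⟩)
  -- every relation is a polynomial relation modulo `𝔪 K`
  set K := RingHom.ker γ
  have hAR : ∀ k ∈ K, ∃ q, MvPolynomial.aeval x q = 0 ∧ k - ι q ∈ maximalIdeal (MvPowerSeries (Fin n) O) * K := by
    intro k hk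
    obtain ⟨c, hc⟩ := (maximalIdeal (MvPowerSeries (Fin n) O)).exists_pow_inf_eq_pow_smul (K : Submodule (MvPowerSeries (Fin n) O) (MvPowerSeries (Fin n) O))
    set t := sh (MvPowerSeries.truncTotal (c + 1) k)
    have hm0 : (maximalIdeal R).comap (MvPolynomial.aeval (R := O) x) ≤ (maximalIdeal (MvPowerSeries (Fin n) O)).comap ι :=
      fun q hq => by
        rw [Ideal.mem_comap, ← hcomapγ, Ideal.mem_comap, ← hψ]
        exact hq
    have h1 : MvPolynomial.aeval x t ∈
        ((maximalIdeal R).comap (MvPolynomial.aeval (R := O) x) ^ (c + 1)).map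
          (MvPolynomial.aeval (R := O) x) := by
      rw [Ideal.map_pow, Ideal.map_comap_of_surjective _ hsurj]
      have h2 := Ideal.mem_map_of_mem γ (htrunc (c + 1) k)
      rw [Ideal.map_pow] at h2
      have h3 := Ideal.pow_right_mono hmapmax (c + 1) h2
      rw [map_sub, RingHom.mem_ker.1 hk, zero_sub, neg_mem_iff, ← hψ] at h3
      exact h3
    obtain ⟨w, hw, hwt⟩ := (Ideal.mem_map_iff_of_surjective _ hsurj).1 h1
    refine ⟨t - w, by rw [map_sub, hwt, sub_self], ?_⟩
    have h4 : ι w ∈ maximalIdeal (MvPowerSeries (Fin n) O) ^ (c + 1) := by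
      have h5 := Ideal.mem_map_of_mem ι (Ideal.pow_right_mono hm0 (c + 1) hw)
      rw [Ideal.map_pow] at h5
      exact Ideal.pow_right_mono Ideal.map_comap_le (c + 1) h5
    have h6 : k - ι (t - w) ∈ maximalIdeal (MvPowerSeries (Fin n) O) ^ (c + 1) ⊓ K := by
      refine ⟨?_, ?_⟩
      · rw [map_sub, sub_sub_eq_add_sub, add_sub_right_comm]
        exact add_mem (htrunc (c + 1) k) h4
      · exact sub_mem hk (by rw [RingHom.mem_ker, ← hψ, map_sub, hwt, sub_self])
    have h7 := hc (c + 1) (Nat.le_succ c)
    rw [Nat.add_sub_cancel_left, pow_one, smul_eq_mul, Ideal.mul_top] at h7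
    have h8 : k - ι (t - w) ∈ maximalIdeal (MvPowerSeries (Fin n) O) • (maximalIdeal (MvPowerSeries (Fin n) O) ^ c • (⊤ : Submodule (MvPowerSeries (Fin n) O) (MvPowerSeries (Fin n) O)) ⊓ K) := by
      rw [← h7]
      exact h6
    exact Submodule.smul_mono le_rfl inf_le_right h8
  choose q hq0 hq using fun i => hAR (g i) (hker ▸ Ideal.subset_span ⟨i, rfl⟩)
  choose P hP hPx using fun i => Algebra.IsIntegral.isIntegral (R := O) (x i)
  let D : ℕ := Finset.univ.sup (fun i => (P i).natDegree) +
    Finset.univ.sup (fun i => (q i).totalDegree) + 2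
  have hDP : ∀ i, (P i).natDegree + 2 ≤ D := fun i => by
    have := Finset.le_sup (f := fun i => (P i).natDegree) (Finset.mem_univ i)
    omega
  have hDq : ∀ i, (q i).totalDegree < D := fun i => by
    have := Finset.le_sup (f := fun i => (q i).totalDegree) (Finset.mem_univ i)
    omega
  let f : Fin n → MvPolynomial (Fin n) O := fun i =>
    q i + MvPolynomial.X i ^ (D - (P i).natDegree) * Polynomial.aeval (MvPolynomial.X i) (P i)
  have hGx : ∀ i, MvPolynomial.aeval x (Polynomial.aeval (MvPolynomial.X i) (P i)) = 0 :=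
    fun i => by
      rw [← Polynomial.aeval_algHom_apply, MvPolynomial.aeval_X]
      exact hPx i
  have hfx : ∀ i, MvPolynomial.aeval x (f i) = 0 := fun i => by simp [f, hq0, hGx]
  have h0 : ∀ i, MvPolynomial.constantCoeff (f i) = 0 := fun i => by
    rw [← aug_comp_aeval π hx0, hfx, map_zero]
  have hf : IsMonicSys f D := ⟨by omega, fun i => by
    have hqdeg : DegLT D (q i) := fun k hk => (MvPolynomial.le_totalDegree hk).trans_lt (hDq i)
    have hPdeg : DegLT D ((MvPolynomial.X i : MvPolynomial (Fin n) O) ^ (D - (P i).natDegree) *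
        Polynomial.aeval (MvPolynomial.X i) (P i) - MvPolynomial.X i ^ D) := by
      have e : Polynomial.aeval (MvPolynomial.X i : MvPolynomial (Fin n) O) (P i) =
          MvPolynomial.X i ^ (P i).natDegree + ∑ l ∈ Finset.range (P i).natDegree,
            MvPolynomial.C ((P i).coeff l) * MvPolynomial.X i ^ l := by
        conv_lhs => rw [(hP i).as_sum]
        simp
      rw [e, mul_add, ← pow_add, Nat.sub_add_cancel (by have := hDP i; omega), add_sub_cancel_left,
        Finset.mul_sum]
      refine Finset.sum_induction _ (DegLT D) (fun _ _ => DegLT.add) (degLT_zero D) fun l hl => ?_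
      rw [mul_left_comm, ← pow_add, MvPolynomial.C_mul_X_pow_eq_monomial]
      refine (degLT_monomial _ _).mono ?_
      rw [Finsupp.degree_single]
      have := Finset.mem_range.1 hl
      have := hDP i
      omega
    simp only [f]
    rw [add_sub_assoc]
    exact hqdeg.add hPdeg⟩
  set F := Ideal.span (Set.range fun i => ι (f i))
  have hKF : K ≤ F := by
    have h1 : K ≤ F ⊔ maximalIdeal (MvPowerSeries (Fin n) O) * K := by
      rw [hker, Ideal.span_le]
      rintro _ ⟨i, rfl⟩
      rw [← hker]
      refine Submodule.mem_sup.2 ⟨ι (f i), Ideal.subset_span ⟨i, rfl⟩, g i - ι (f i), ?_,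
        add_sub_cancel _ _⟩
      simp only [f, map_add, ← sub_sub]
      refine sub_mem (hq i) ?_
      rw [map_mul]
      refine Ideal.mul_mem_mul ?_ ?_
      · rw [map_pow]
        exact Ideal.pow_mem_of_mem _ (by simpa [ι] using hsmax i) _ (by have := hDP i; omega)
      · rw [RingHom.mem_ker, ← hψ]
        exact hGx i
    exact Submodule.le_of_le_smul_of_le_jacobson_bot K.fg_of_isNoetherianRing
      (IsLocalRing.maximalIdeal_le_jacobson ⊥) (by rwa [smul_eq_mul])
  -- polynomial relations lie in the ideal of the system up to a unit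
  have hrel : ∀ p, MvPolynomial.aeval x p = 0 →
      ∃ e, IsUnit (MvPolynomial.constantCoeff e) ∧ e * p ∈ relIdeal f := by
    intro p hp
    obtain ⟨c, hc⟩ := Ideal.mem_span_range_iff_exists_fun.1
      (hKF (RingHom.mem_ker.2 (by rw [← hψ, hp]) : ι p ∈ K))
    set m := maxAtZero O n
    have hshm : MvPolynomial.idealOfVars (Fin n) O ≤ m.comap sh := by
      rw [MvPolynomial.idealOfVars, Ideal.span_le]
      rintro _ ⟨j, rfl⟩
      simpa [sh, m, maxAtZero] using ha j
    let mkI := Ideal.Quotient.mk (relIdeal f)
    have hmem : mkI p ∈ ⨅ N : ℕ, (m.map mkI) ^ N • (⊤ : Ideal (MvPolynomial (Fin n) O ⧸ relIdeal f)) := by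
      refine Submodule.mem_iInf _ |>.2 fun N => ?_
      rw [smul_eq_mul, Ideal.mul_top, ← Ideal.map_pow]
      let L : (MvPolynomial (Fin n) O ⧸ MvPolynomial.idealOfVars (Fin n) O ^ N) →+*
          (MvPolynomial (Fin n) O ⧸ m ^ N) :=
        Ideal.quotientMap (m ^ N) (sh : MvPolynomial (Fin n) O →+* MvPolynomial (Fin n) O)
          ((Ideal.pow_right_mono hshm N).trans (Ideal.le_comap_pow _ N))
      let σ : (MvPowerSeries (Fin n) O) →+* (MvPolynomial (Fin n) O ⧸ m ^ N) :=
        L.comp (MvPowerSeries.truncTotalAlgHom (Fin n) O N).toRingHom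
      have hσcoe : ∀ r : MvPolynomial (Fin n) O, σ (r : (MvPowerSeries (Fin n) O)) = Ideal.Quotient.mk (m ^ N) (sh r) := by
        intro r
        have h1 : (MvPowerSeries.truncTotalAlgHom (Fin n) O N) (r : (MvPowerSeries (Fin n) O)) = Ideal.Quotient.mk _ r :=
          (MvPowerSeries.truncTotalAlgHom (Fin n) O N).commutes r
        simp only [σ, RingHom.comp_apply, AlgHom.toRingHom_eq_coe, RingHom.coe_coe]
        rw [h1]
        exact Ideal.quotientMap_mk
      have hσι : ∀ r, σ (ι r) = Ideal.Quotient.mk (m ^ N) r := by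
        intro r
        induction r using MvPolynomial.induction_on with
        | C c =>
          have h1 : ι (MvPolynomial.C c) = ((MvPolynomial.C c : MvPolynomial (Fin n) O) : (MvPowerSeries (Fin n) O)) := by
            simp [ι, halg]
          rw [h1, hσcoe]
          simp [sh]
        | add r r' hr hr' => simp [hr, hr']
        | mul_X r j hr =>
          have h1 : ι (MvPolynomial.X j) =
              ((MvPolynomial.X j - MvPolynomial.C (a j) : MvPolynomial (Fin n) O) : (MvPowerSeries (Fin n) O)) := by
            rw [← MvPolynomial.coeToMvPowerSeries.ringHom_apply, map_sub,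
              MvPolynomial.coeToMvPowerSeries.ringHom_apply, MvPolynomial.coeToMvPowerSeries.ringHom_apply]
            simp [ι, s, halg]
          rw [map_mul, map_mul, hr, h1, hσcoe, map_mul]
          simp [sh]
      choose w hw using fun i => Ideal.Quotient.mk_surjective (σ (c i))
      have h2 : p - ∑ i, w i * f i ∈ m ^ N := by
        rw [← Ideal.Quotient.eq, map_sum, ← hσι, ← hc, map_sum]
        simp only [map_mul, hσι, hw]
      have h3 := Ideal.mem_map_of_mem mkI h2
      have h4 : mkI (∑ i, w i * f i) = 0 := Ideal.Quotient.eq_zero_iff_mem.2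
        (Submodule.sum_mem _ fun i _ => Ideal.mul_mem_left _ _ (Ideal.subset_span ⟨i, rfl⟩))
      rwa [map_sub, h4, sub_zero] at h3
    obtain ⟨⟨r, hr⟩, hrp⟩ := (Ideal.mem_iInf_smul_pow_eq_bot_iff _ _).1 hmem
    obtain ⟨r', hr', rfl⟩ := (Ideal.mem_map_iff_of_surjective _ Ideal.Quotient.mk_surjective).1 hr
    refine ⟨1 - r', ?_, Ideal.Quotient.eq_zero_iff_mem.1 ?_⟩
    · by_contra hnu
      have h5 : (1 - MvPolynomial.constantCoeff r') + MvPolynomial.constantCoeff r' ∈ maximalIdeal O :=
        add_mem ((IsLocalRing.mem_maximalIdeal _).2 (by simpa using hnu)) hr'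
      rw [sub_add_cancel] at h5
      exact (maximalIdeal.isMaximal O).ne_top ((Ideal.eq_top_iff_one _).2 h5)
    · rw [map_mul, map_sub, map_one, sub_mul, one_mul]
      exact sub_eq_zero.2 hrp.symm
  -- the congruence ideal
  obtain ⟨Δ, hΔ, hΔ1, hann, hπΔ⟩ := exists_annihilates_aug_eq_det π hspan hf h0 hfx
  set d := (linMat f).det
  have hηd : congIdeal π ≤ Ideal.span {d} := by
    intro c hc
    obtain ⟨t, ht, rfl⟩ := mem_congIdeal.1 hc
    obtain ⟨p, rfl⟩ := hsurj t
    choose e he using fun j => hrel (p * MvPolynomial.X j)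
      (by rw [map_mul, MvPolynomial.aeval_X]; exact ht _ (hx0 j))
    set E := ∏ j, e j
    have hE : ∀ j, E * p * MvPolynomial.X j ∈ relIdeal f := fun j => by
      have h1 : E = (∏ i ∈ Finset.univ.erase j, e i) * e j := by
        rw [mul_comm, Finset.mul_prod_erase _ _ (Finset.mem_univ j)]
      rw [h1, mul_assoc, mul_assoc]
      exact Ideal.mul_mem_left _ _ (he j).2
    have h2 := sub_socle_mem hf hΔ hΔ1 hE
    have h3 : π (MvPolynomial.aeval x (E * p - MvPolynomial.C (topFun f D (E * p)) * Δ)) = 0 := by
      obtain ⟨k, hk⟩ := Ideal.mem_span_range_iff_exists_fun.1 h2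
      simp [← hk, hfx]
    simp only [map_sub, map_mul, hπΔ, MvPolynomial.aeval_C, AlgHom.commutes,
      Algebra.algebraMap_self, RingHom.id_apply, sub_eq_zero] at h3
    have hEu : IsUnit (π (MvPolynomial.aeval x E)) := by
      rw [aug_comp_aeval π hx0, map_prod]
      exact IsUnit.prod_univ_iff.2 fun j => (he j).1
    refine Ideal.mem_span_singleton.2 ?_
    exact (IsUnit.dvd_mul_left hEu).1 (Dvd.intro_left _ h3.symm)
  have hd : d ≠ 0 := fun h => hη (by
    have hη0 := hηd
    rw [h, Ideal.span_singleton_zero] at hη0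
    exact le_antisymm hη0 bot_le)
  have hη' : congIdeal π = Ideal.span {d} := le_antisymm hηd
    ((Ideal.span_singleton_le_iff_mem _).2 (mem_congIdeal.2 ⟨_, hann, hπΔ⟩))
  rw [length_cotangent_eq π x hx0 hspan, hη', length_quotient_span_singleton]
  refine le_antisymm ?_ ?_
  · rw [← length_quotient_rows_eq_ord_det (linMat f) hd]
    have hle : Submodule.span O (Set.range fun i => linMat f i) ≤ relLat π x := by
      rw [Submodule.span_le]
      rintro _ ⟨i, rfl⟩
      have h1 : MvPolynomial.aeval x (f i - ∑ j, MvPolynomial.C (linMat f i j) * MvPolynomial.X j) ∈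
          RingHom.ker π ^ 2 := by
        have h2 : f i - ∑ j, MvPolynomial.C (linMat f i j) * MvPolynomial.X j ∈
            MvPolynomial.idealOfVars (Fin n) O ^ 2 := by
          rw [MvPolynomial.mem_pow_idealOfVars_iff']
          intro m hm
          rcases Nat.lt_or_ge m.degree 1 with h | h
          · obtain rfl : m = 0 := (Finsupp.degree_eq_zero_iff m).1 (by omega)
            rw [← MvPolynomial.constantCoeff_eq, map_sub, h0, map_sum]
            simp
          · obtain ⟨j, rfl⟩ : ∃ j, Finsupp.single j 1 = m := by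
              obtain ⟨j, hj⟩ := Finsupp.support_nonempty_iff.2
                (fun h' : m = 0 => by simp [h'] at h)
              have hle : Finsupp.single j 1 ≤ m :=
                Finsupp.single_le_iff.2 (Nat.one_le_iff_ne_zero.2 (Finsupp.mem_support_iff.1 hj))
              refine ⟨j, ?_⟩
              have h3 : (m - Finsupp.single j 1).degree = 0 := by
                have h4 : (m - Finsupp.single j 1).degree + 1 = m.degree := by
                  conv_rhs => rw [← tsub_add_cancel_of_le hle, map_add, Finsupp.degree_single]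
                omega
              exact le_antisymm hle (tsub_eq_zero_iff_le.1 ((Finsupp.degree_eq_zero_iff _).1 h3))
            rw [MvPolynomial.coeff_sub, coeff_single_sum_X, MvPolynomial.constantCoeff_C]
            exact sub_self _
        have h5 := Ideal.mem_map_of_mem (MvPolynomial.aeval (R := O) x) h2
        rw [Ideal.map_pow] at h5
        refine Ideal.pow_right_mono ?_ 2 h5
        rw [MvPolynomial.idealOfVars, Ideal.map_span, Ideal.span_le]
        rintro _ ⟨_, ⟨j, rfl⟩, rfl⟩
        simpa using hx0 j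
      rw [map_sub, hfx, zero_sub, neg_mem_iff, map_sum] at h1
      rw [SetLike.mem_coe, mem_relLat]
      simpa [Algebra.smul_def] using h1
    exact Module.length_le_of_surjective (Submodule.factor hle) (Submodule.factor_surjective hle)
  · obtain ⟨f', D', hf', h0', hfx', hrows', hd'⟩ := exists_monicSys π x hspan hη
    rw [← hrows', length_quotient_rows_eq_ord_det _ hd']
    refine Ring.ord_le_ord_of_dvd ?_
    exact Ideal.mem_span_singleton.1 (hηd (det_mem_congIdeal π hspan hf' h0' hfx'))

end Fermat.Agent.NumCrit
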