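import Fermat.Agent.NumCrit.Criterion
import Fermat.Agent.NumCrit.CompleteIntersection
import Fermat.Agent.NumCrit.ModuleVariant
import Mathlib.RingTheory.Ideal.MinimalPrime.Noetherian
import Mathlib.LinearAlgebra.FreeModule.Finite.Matrix
import Mathlib.RingTheory.Nilpotent.Lemmas

/-!
The packaged form of the numerical criterion used for `R = T` at non-minimal level: freeness at
minimal level, Diamond's congruence modules, and the growth of cotangent spaces.
-/

set_option autoImplicit false

noncomputable section

namespace Fermat.Agent.NumCrit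

open IsLocalRing

universe u

variable {O : Type*} [CommRing O] [IsDomain O] [IsDiscreteValuationRing O]

/-- A reduced finite free algebra has nonzero congruence ideals. -/
theorem congIdeal_ne_bot_of_isReduced {T : Type*} [CommRing T] [Algebra O T] [Module.Finite O T]
    [IsReduced T] (π : T →ₐ[O] O) : congIdeal π ≠ ⊥ := by
  classical
  have : IsNoetherianRing T := IsNoetherianRing.of_finite O T
  have hfin : (minimalPrimes T).Finite := minimalPrimes.finite_of_isNoetherianRing T
  set P := RingHom.ker π
  have hP : P.IsPrime := RingHom.ker_isPrime _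
  have key : ∀ Q ∈ minimalPrimes T, Q ≤ P → Q = P := by
    intro Q hQ hle
    by_contra hne
    have : Q.IsPrime := Ideal.IsMinimalPrime.isPrime hQ
    have h1 := Ideal.IsIntegral.comap_lt_comap (R := O) (lt_of_le_of_ne hle hne)
    obtain ⟨c, hc, hc'⟩ := SetLike.exists_of_lt h1
    have h2 : c = 0 := by simpa [P, RingHom.mem_ker] using hc
    exact hc' (h2 ▸ (Q.comap (algebraMap O T)).zero_mem)
  have hex : ∀ Q ∈ hfin.toFinset.erase P, ∃ t ∈ Q, t ∉ P := by
    intro Q hQ
    rw [Finset.mem_erase, Set.Finite.mem_toFinset] at hQ
    refine SetLike.not_le_iff_exists.1 fun hle => hQ.1 (key Q hQ.2 hle)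
  choose! t htQ htP using hex
  refine fun hbot => ?_
  have hπ : π (∏ Q ∈ hfin.toFinset.erase P, t Q) = 0 := by
    have hmem : π (∏ Q ∈ hfin.toFinset.erase P, t Q) ∈ congIdeal π := by
      refine mem_congIdeal.2 ⟨_, fun y hy => ?_, rfl⟩
      refine (IsReduced.eq_zero _ ?_)
      rw [← mem_nilradical, nilradical_eq_sInf, Submodule.mem_sInf]
      intro Q hQ
      have : Ideal.IsPrime Q := hQ
      obtain ⟨Q', hQ', hle⟩ := Ideal.exists_minimalPrimes_le (I := (⊥ : Ideal T)) (J := Q) bot_le
      refine hle ?_
      by_cases hQP : Q' = P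
      · exact Ideal.mul_mem_left _ _ (hQP.symm ▸ (RingHom.mem_ker.2 hy : y ∈ P))
      · refine Ideal.mul_mem_right _ _ ?_
        have hm : Q' ∈ hfin.toFinset.erase P :=
          Finset.mem_erase.2 ⟨hQP, hfin.mem_toFinset.2 hQ'⟩
        exact Ideal.prod_mem Q' hm (htQ Q' hm)
    rwa [hbot, Ideal.mem_bot] at hmem
  rw [map_prod, Finset.prod_eq_zero_iff] at hπ
  obtain ⟨Q, hQ, h0⟩ := hπ
  exact htP Q hQ h0

/-- Minimal level: freeness and complete intersection give `length Ψ = d * length cotangent`. -/
theorem length_congModule_eq_length_cotangent {R : Type u} [CommRing R] [Algebra O R]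
    [Module.Finite O R] [Module.Free O R] {n d : ℕ} (γ : MvPowerSeries (Fin n) O →ₐ[O] R)
    (hγ : Function.Surjective γ) (g : Fin n → MvPowerSeries (Fin n) O)
    (hker : RingHom.ker γ = Ideal.span (Set.range g)) (π : R →ₐ[O] O) (hη : congIdeal π ≠ ⊥)
    {M : Type*} [AddCommGroup M] [Module O M] [Module R M] [IsScalarTower O R M]
    [Module.Finite O M] [Module.Free O M] (b : Module.Basis (Fin d) R M)
    (B : M →ₗ[O] M →ₗ[O] O)
    (hadj : ∀ t : R, (∀ y : R, π y = 0 → t * y = 0) → ∀ m, ∀ l ∈ eigenSub π M,
      B (t • m) l = B m (t • l))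
    (hsurj : Function.Surjective fun m => (B m).comp (eigenSub π M).subtype) :
    Module.length O (CongModule B (eigenSub π M)) =
      d * Module.length O (RingHom.ker π).Cotangent := by
  rw [length_congModule_eq_of_free b π hη B hadj hsurj,
    length_cotangent_eq_of_completeIntersection γ hγ g hker π hη]

/-- An algebra acting faithfully on a finite free `O`-module is finite free over `O`. -/
theorem finite_free_of_faithful {T M : Type*} [CommRing T] [Algebra O T] [AddCommGroup M]
    [Module O M] [Module T M] [IsScalarTower O T M] [Module.Finite O M] [Module.Free O M]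
    [FaithfulSMul T M] : Module.Finite O T ∧ Module.Free O T := by
  let f : T →ₗ[O] Module.End O M :=
    { toFun := fun t => DistribSMul.toLinearMap O M t
      map_add' := fun s t => LinearMap.ext fun m => add_smul s t m
      map_smul' := fun c t => LinearMap.ext fun m => smul_assoc c t m }
  have hf : Function.Injective f := fun s t h =>
    FaithfulSMul.eq_of_smul_eq_smul (α := M) fun m => LinearMap.congr_fun h m
  have : Module.Finite O T := Module.Finite.of_injective f hf
  have : Module.IsTorsionFree O T := hf.moduleIsTorsionFree f (map_smul f)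
  exact ⟨inferInstance, inferInstance⟩

/-- **Numerical criterion, Diamond's form**: if the congruence module of a module with faithful
`T`-action is at least `d` times as long as the cotangent space of `R`, then `R ≅ T`. -/
theorem bijective_of_congModule_length {R T M : Type*} [CommRing R] [Algebra O R] [IsLocalRing R]
    [IsNoetherianRing R] [CommRing T] [Algebra O T] [AddCommGroup M] [Module O M] [Module T M]
    [IsScalarTower O T M] [Module.Finite O M] [Module.Free O M] [FaithfulSMul T M]
    (φ : R →ₐ[O] T) (hφ : Function.Surjective φ) (π : T →ₐ[O] O) (hη : congIdeal π ≠ ⊥)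
    (B : M →ₗ[O] M →ₗ[O] O)
    (hadj : ∀ t : T, (∀ y : T, π y = 0 → t * y = 0) → ∀ m, ∀ l ∈ eigenSub π M,
      B (t • m) l = B m (t • l))
    (hsurj : Function.Surjective fun m => (B m).comp (eigenSub π M).subtype)
    (hd : Module.finrank O (eigenSub π M) ≠ 0)
    (h : Module.finrank O (eigenSub π M) * Module.length O (RingHom.ker (π.comp φ)).Cotangent ≤
      Module.length O (CongModule B (eigenSub π M))) :
    Function.Bijective φ := by
  obtain ⟨h1, h2⟩ := finite_free_of_faithful (O := O) (T := T) (M := M)
  refine bijective_of_length_cotangent_le φ hφ π hη ?_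
  exact (ENat.mul_le_mul_left_iff (by exact_mod_cast hd) (ENat.natCast_ne_top _)).1
    (h.trans (length_congModule_le π B hadj hsurj))

/-- The packaged level change: equality at level `0`, growth of the congruence module by exactly
`d * ord c` and of the cotangent space by at most `ord c`. -/
theorem bijective_of_growth {R T M : Type*} [CommRing R] [Algebra O R] [IsLocalRing R]
    [IsNoetherianRing R] [CommRing T] [Algebra O T] [AddCommGroup M] [Module O M] [Module T M]
    [IsScalarTower O T M] [Module.Finite O M] [Module.Free O M] [FaithfulSMul T M]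
    (φ : R →ₐ[O] T) (hφ : Function.Surjective φ) (π : T →ₐ[O] O) (hη : congIdeal π ≠ ⊥)
    (B : M →ₗ[O] M →ₗ[O] O)
    (hadj : ∀ t : T, (∀ y : T, π y = 0 → t * y = 0) → ∀ m, ∀ l ∈ eigenSub π M,
      B (t • m) l = B m (t • l))
    (hsurj : Function.Surjective fun m => (B m).comp (eigenSub π M).subtype)
    {d : ℕ} (hd : d ≠ 0) (hrank : Module.finrank O (eigenSub π M) = d)
    {cot₀ psi₀ : ℕ∞} (c : O) (hmin : psi₀ = d * cot₀)
    (hpsi : Module.length O (CongModule B (eigenSub π M)) = psi₀ + d * Ring.ord O c)
    (hcot : Module.length O (RingHom.ker (π.comp φ)).Cotangent ≤ cot₀ + Ring.ord O c) :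
    Function.Bijective φ := by
  refine bijective_of_congModule_length φ hφ π hη B hadj hsurj (hrank ▸ hd) ?_
  rw [hrank, hpsi, hmin, ← mul_add]
  gcongr

end Fermat.Agent.NumCrit
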