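import Mathlib.RingTheory.Ideal.Cotangent
import Mathlib.RingTheory.Length
import Mathlib.RingTheory.DiscreteValuationRing.Basic
import Mathlib.RingTheory.Finiteness.Basic
import Mathlib.LinearAlgebra.Dual.Defs

/-!
Definitions for the numerical criterion (Wiles, Lenstra, Diamond): congruence ideal of an
augmented algebra, and congruence module of a module with a pairing.
-/

set_option autoImplicit false

noncomputable section

namespace Fermat.Agent.NumCrit

variable {O A M : Type*} [CommRing O] [CommRing A] [Algebra O A]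
  [AddCommGroup M] [Module O M] [Module A M] [IsScalarTower O A M]

/-- The congruence ideal `π (Ann (ker π))` of an augmented algebra. -/
def congIdeal (π : A →ₐ[O] O) : Ideal O :=
  Ideal.map π (RingHom.ker π).annihilator

theorem aug_surjective (π : A →ₐ[O] O) : Function.Surjective π :=
  fun c => ⟨algebraMap O A c, π.commutes c⟩

theorem mem_congIdeal {π : A →ₐ[O] O} {c : O} :
    c ∈ congIdeal π ↔ ∃ t : A, (∀ y : A, π y = 0 → t * y = 0) ∧ π t = c := by
  rw [congIdeal, Ideal.mem_map_iff_of_surjective _ (aug_surjective π)]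
  simp only [Submodule.mem_annihilator, RingHom.mem_ker, smul_eq_mul]

theorem sub_algebraMap_mem_ker (π : A →ₐ[O] O) (a : A) : π (a - algebraMap O A (π a)) = 0 := by
  rw [map_sub, π.commutes]
  simp

/-- The part of `M` killed by the kernel of the augmentation. -/
def eigenSub (π : A →ₐ[O] O) (M : Type*) [AddCommGroup M] [Module O M] [Module A M]
    [IsScalarTower O A M] : Submodule O M :=
  (Submodule.torsionBySet A M (RingHom.ker π : Set A)).restrictScalars O

theorem mem_eigenSub {π : A →ₐ[O] O} {m : M} :
    m ∈ eigenSub π M ↔ ∀ y : A, π y = 0 → y • m = 0 := by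
  simp [eigenSub, Submodule.mem_torsionBySet_iff]

theorem smul_eq_of_mem_eigenSub {π : A →ₐ[O] O} {m : M} (hm : m ∈ eigenSub π M) (a : A) :
    a • m = π a • m := by
  have := mem_eigenSub.1 hm _ (sub_algebraMap_mem_ker π a)
  rwa [sub_smul, sub_eq_zero, algebraMap_smul] at this

/-- An element killing `ker π` with zero image vanishes, if the congruence ideal is nonzero. -/
theorem eq_zero_of_ann [IsDomain O] [Module.IsTorsionFree O A] (π : A →ₐ[O] O)
    (hη : congIdeal π ≠ ⊥) {t : A} (ht : ∀ z : A, π z = 0 → t * z = 0) (h0 : π t = 0) : t = 0 := by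
  obtain ⟨c, hc, hc0⟩ := (congIdeal π).ne_bot_iff.1 hη
  obtain ⟨j, hj, hjc⟩ := mem_congIdeal.1 hc
  have h1 : t * (j - algebraMap O A c) = 0 := ht _ (by simp [hjc, π.commutes])
  have h2 : c • t = 0 := by
    rw [mul_sub, mul_comm t j, hj t h0, zero_sub, neg_eq_zero, mul_comm, ← Algebra.smul_def] at h1
    exact h1
  exact (smul_eq_zero.1 h2).resolve_left hc0

/-- The map `L → Hom(L, O)` attached to a bilinear form. -/
def gram (B : M →ₗ[O] M →ₗ[O] O) (L : Submodule O M) : L →ₗ[O] Module.Dual O L :=
  B.compl₁₂ L.subtype L.subtype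

/-- The congruence module of `L` with respect to a bilinear form. -/
abbrev CongModule (B : M →ₗ[O] M →ₗ[O] O) (L : Submodule O M) : Type _ :=
  Module.Dual O L ⧸ LinearMap.range (gram B L)

end Fermat.Agent.NumCrit
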