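import Fermat.Agent.NumCrit.MonicCI
import Mathlib.LinearAlgebra.Matrix.Adjugate

/-!
For a monic system without constant terms, the determinant `Δ` of a matrix expressing the `fᵢ`
in the `Xⱼ` spans the annihilator of the `Xⱼ` modulo the relations, and pairs to `1`.
-/

set_option autoImplicit false

noncomputable section

namespace Fermat.Agent.NumCrit

open MvPolynomial

variable {O : Type*} [CommRing O] {n : ℕ}

/-- All monomials have degree `< N`. -/
def DegLT (N : ℕ) (p : MvPolynomial (Fin n) O) : Prop := ∀ m ∈ p.support, m.degree < N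

theorem DegLT.mono {N N' : ℕ} {p : MvPolynomial (Fin n) O} (h : DegLT N p) (hN : N ≤ N') :
    DegLT N' p := fun m hm => (h m hm).trans_le hN

theorem degLT_zero (N : ℕ) : DegLT N (0 : MvPolynomial (Fin n) O) := fun m hm => by simp at hm

theorem DegLT.add {N : ℕ} {p q : MvPolynomial (Fin n) O} (hp : DegLT N p) (hq : DegLT N q) :
    DegLT N (p + q) := fun m hm => by
  classical
  rcases Finset.mem_union.1 (MvPolynomial.support_add hm) with h | h
  · exact hp m h
  · exact hq m h

theorem DegLT.mul {a b : ℕ} {p q : MvPolynomial (Fin n) O} (hp : DegLT a p) (hq : DegLT b q) :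
    DegLT (a + b - 1) (p * q) := fun m hm => by
  classical
  obtain ⟨u, hu, v, hv, rfl⟩ := Finset.mem_add.1 (MvPolynomial.support_mul p q hm)
  have := hp u hu
  have := hq v hv
  rw [map_add]; omega

theorem degLT_monomial (a : Fin n →₀ ℕ) (c : O) : DegLT (a.degree + 1) (monomial a c) :=
  fun m hm => by
    classical
    rw [Finset.mem_singleton.1 (support_monomial_subset hm)]
    omega

theorem degLT_prod {ι : Type*} (s : Finset ι) (p : ι → MvPolynomial (Fin n) O) (N : ℕ)
    (hp : ∀ i ∈ s, DegLT (N + 1) (p i)) : DegLT (s.card * N + 1) (∏ i ∈ s, p i) := by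
  induction s using Finset.cons_induction with
  | empty =>
    intro m hm
    classical
    rw [Finset.prod_empty, MvPolynomial.mem_support_iff, coeff_one] at hm
    rcases eq_or_ne 0 m with h | h
    · subst h; simp
    · exact absurd (if_neg h) hm
  | cons i s hi ih =>
    rw [Finset.prod_cons, Finset.card_cons]
    exact ((hp i (Finset.mem_cons_self i s)).mul
      (ih fun j hj => hp j (Finset.mem_cons_of_mem hj))).mono (by rw [add_mul]; omega)

theorem topFun_eq_zero_of_degLT {f : Fin n → MvPolynomial (Fin n) O} {D : ℕ}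
    (hf : IsMonicSys f D) {p : MvPolynomial (Fin n) O} (hp : DegLT (n * (D - 1)) p) :
    topFun f D p = 0 := by
  rw [p.as_sum, map_sum]
  refine Finset.sum_eq_zero fun m hm => ?_
  rw [topFun_monomial, lamMono_eq_zero hf (hp m hm).le (fun hall => ?_), mul_zero]
  exact (hp m hm).ne (degree_eq_top hall)

theorem exists_eq_sum_mul_X {N : ℕ} {p : MvPolynomial (Fin n) O} (hp : DegLT (N + 1) p)
    (h0 : constantCoeff p = 0) :
    ∃ q : Fin n → MvPolynomial (Fin n) O, (∀ j, DegLT N (q j)) ∧ p = ∑ j, q j * X j := by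
  classical
  have key : ∀ m ∈ p.support, ∃ q : Fin n → MvPolynomial (Fin n) O,
      (∀ j, DegLT N (q j)) ∧ monomial m (p.coeff m) = ∑ j, q j * X j := by
    intro m hm
    have hm0 : m ≠ 0 := by
      rintro rfl
      exact (MvPolynomial.mem_support_iff.1 hm) h0
    obtain ⟨j, hj⟩ := Finsupp.support_nonempty_iff.2 hm0
    have hle : Finsupp.single j 1 ≤ m :=
      Finsupp.single_le_iff.2 (Nat.one_le_iff_ne_zero.2 (Finsupp.mem_support_iff.1 hj))
    refine ⟨fun k => if k = j then monomial (m - Finsupp.single j 1) (p.coeff m) else 0,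
      fun k => ?_, ?_⟩
    · dsimp only
      split_ifs
      · refine (degLT_monomial _ _).mono ?_
        have h1 : (m - Finsupp.single j 1).degree + 1 = m.degree := by
          conv_rhs => rw [← tsub_add_cancel_of_le hle, map_add, Finsupp.degree_single]
        have := hp m hm
        omega
      · exact degLT_zero N
    · simp only [ite_mul, zero_mul, Finset.sum_ite_eq', Finset.mem_univ, if_true]
      rw [X, monomial_mul, mul_one, tsub_add_cancel_of_le hle]
  choose! q hq hq' using key
  refine ⟨fun j => ∑ m ∈ p.support, q m j, fun j => ?_, ?_⟩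
  · refine Finset.sum_induction _ (DegLT N) (fun _ _ => DegLT.add) (degLT_zero N)
      fun m hm => hq m hm j
  · simp only [Finset.sum_mul]
    rw [Finset.sum_comm]
    conv_lhs => rw [p.as_sum]
    exact Finset.sum_congr rfl hq'

/-- The matrix of linear coefficients. -/
def linMat (f : Fin n → MvPolynomial (Fin n) O) : Matrix (Fin n) (Fin n) O :=
  Matrix.of fun i j => coeff (Finsupp.single j 1) (f i)

theorem constantCoeff_eq_linMat {f : Fin n → MvPolynomial (Fin n) O}
    {A : Matrix (Fin n) (Fin n) (MvPolynomial (Fin n) O)} (hA : ∀ i, f i = ∑ j, A i j * X j)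
    (i j : Fin n) : constantCoeff (A i j) = linMat f i j := by
  classical
  rw [linMat, Matrix.of_apply, hA i, coeff_sum, Finset.sum_eq_single j]
  · rw [coeff_mul_X', if_pos (by simp), tsub_self, constantCoeff_eq]
  · intro k _ hk
    rw [coeff_mul_X', if_neg (by simp [hk])]
  · simp

variable {f : Fin n → MvPolynomial (Fin n) O} {D : ℕ}

/-- The socle element. -/
theorem exists_socle (hf : IsMonicSys f D) (h0 : ∀ i, constantCoeff (f i) = 0) :
    ∃ Δ : MvPolynomial (Fin n) O, (∀ j, Δ * X j ∈ relIdeal f) ∧ topFun f D Δ = 1 ∧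
      constantCoeff Δ = (linMat f).det := by
  classical
  obtain ⟨hD, hfD⟩ := hf
  have hL : ∀ i, ∃ q : Fin n → MvPolynomial (Fin n) O,
      (∀ j, DegLT (D - 1) (q j)) ∧ f i - X i ^ D = ∑ j, q j * X j := fun i =>
    exists_eq_sum_mul_X (fun m hm => (hfD i m hm).trans_le (by omega))
      (by simp [h0 i, zero_pow (by omega : D ≠ 0)])
  choose B hB hB' using hL
  let A : Matrix (Fin n) (Fin n) (MvPolynomial (Fin n) O) :=
    Matrix.of fun i j => (if i = j then X i ^ (D - 1) else 0) + B i j
  have hA : ∀ i, f i = ∑ j, A i j * X j := fun i => by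
    have e : X i ^ (D - 1) * X i = (X i ^ D : MvPolynomial (Fin n) O) := by
      rw [← pow_succ, Nat.sub_add_cancel (by omega : 1 ≤ D)]
    simp only [A, Matrix.of_apply, add_mul, Finset.sum_add_distrib, ite_mul, zero_mul,
      Finset.sum_ite_eq, Finset.mem_univ, if_true, e, ← hB' i]
    ring
  refine ⟨A.det, fun j => ?_, ?_, ?_⟩
  · have hv : A.mulVec X = f := funext fun i => (hA i).symm
    have h1 : A.det * X j = A.adjugate.mulVec (A.mulVec X) j := by
      rw [Matrix.mulVec_mulVec, Matrix.adjugate_mul, Matrix.smul_mulVec, Matrix.one_mulVec]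
      rfl
    rw [h1, hv]
    exact Submodule.sum_mem (relIdeal f) (t := Finset.univ) fun i _ => Ideal.mul_mem_left _ _ (Ideal.subset_span (s := Set.range f) ⟨i, rfl⟩)
  · have hX : ∀ i : Fin n, DegLT D (X i ^ (D - 1) : MvPolynomial (Fin n) O) := fun i => by
      rw [X_pow_eq_monomial]
      exact (degLT_monomial _ _).mono (by rw [Finsupp.degree_single]; omega)
    have hAD : ∀ i j, DegLT D (A i j) := fun i j => by
      simp only [A, Matrix.of_apply]
      refine DegLT.add ?_ ((hB i j).mono (by omega))
      split_ifs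
      · exact hX i
      · exact degLT_zero D
    have hdiag : ∀ s : Finset (Fin n), DegLT (s.card * (D - 1))
        ((∏ i ∈ s, A i i) - ∏ i ∈ s, X i ^ (D - 1)) := by
      intro s
      induction s using Finset.cons_induction with
      | empty => simpa using degLT_zero 0
      | cons i s hi ih =>
        rw [Finset.prod_cons, Finset.prod_cons, Finset.card_cons]
        have e : A i i * (∏ i ∈ s, A i i) - X i ^ (D - 1) * ∏ i ∈ s, X i ^ (D - 1) =
            X i ^ (D - 1) * ((∏ i ∈ s, A i i) - ∏ i ∈ s, X i ^ (D - 1)) +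
              B i i * ∏ i ∈ s, A i i := by
          rw [show A i i = X i ^ (D - 1) + B i i by simp [A]]
          ring
        rw [e]
        refine (((hX i).mul ih).mono ?_).add (((hB i i).mul
          (degLT_prod s _ (D - 1) fun j _ => (hAD j j).mono (by omega))).mono ?_)
        · rw [add_mul]; omega
        · rw [add_mul]; omega
    rw [Matrix.det_apply, map_sum, Finset.sum_eq_single (1 : Equiv.Perm (Fin n))]
    · simp only [Equiv.Perm.sign_one, one_smul, Equiv.Perm.coe_one, id_eq]
      have h1 := topFun_eq_zero_of_degLT (f := f) (D := D) ⟨hD, hfD⟩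
        (show DegLT (n * (D - 1)) ((∏ i, A i i) - ∏ i, X i ^ (D - 1)) by simpa using hdiag Finset.univ)
      rw [map_sub, sub_eq_zero] at h1
      rw [h1, show (∏ i : Fin n, X i ^ (D - 1) : MvPolynomial (Fin n) O) =
        monomial (Finsupp.equivFunOnFinite.symm fun _ => D - 1) 1 by
          simp [MvPolynomial.monomial_eq, Finsupp.prod_fintype]]
      rw [topFun_monomial, lamMono_top (fun i => by simp; omega), one_mul]
    · intro σ _ hσ
      obtain ⟨i, hi⟩ : ∃ i, σ i ≠ i := by
        by_contra hcon
        push Not at hcon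
        exact hσ (Equiv.ext hcon)
      rw [Units.smul_def, map_zsmul, topFun_eq_zero_of_degLT (f := f) (D := D) ⟨hD, hfD⟩ ?_, smul_zero]
      rw [← Finset.mul_prod_erase Finset.univ _ (Finset.mem_univ i)]
      have hoff : DegLT (D - 1) (A (σ i) i) := by
        simpa [A, hi] using hB (σ i) i
      refine (hoff.mul (degLT_prod _ _ (D - 1) fun j _ => (hAD (σ j) j).mono (by omega))).mono ?_
      rw [Finset.card_erase_of_mem (Finset.mem_univ i), Finset.card_univ, Fintype.card_fin]
      have hn : n * (D - 1) = (n - 1) * (D - 1) + (D - 1) := by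
        conv_lhs => rw [show n = n - 1 + 1 by have := i.pos; omega, add_mul, one_mul]
      omega
    · simp
  · rw [RingHom.map_det]
    congr 1
    ext i j
    exact constantCoeff_eq_linMat hA i j

/-- The annihilator of the variables is spanned by the socle element. -/
theorem sub_socle_mem (hf : IsMonicSys f D) {Δ a : MvPolynomial (Fin n) O}
    (hΔ : ∀ j, Δ * X j ∈ relIdeal f) (hΔ1 : topFun f D Δ = 1)
    (ha : ∀ j, a * X j ∈ relIdeal f) : a - C (topFun f D a) * Δ ∈ relIdeal f := by
  refine mem_relIdeal_of_topFun_mul hf fun p => ?_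
  rw [p.as_sum, Finset.mul_sum, map_sum]
  refine Finset.sum_eq_zero fun m _ => ?_
  rcases eq_or_ne m 0 with rfl | hm
  · rw [show monomial (0 : Fin n →₀ ℕ) (p.coeff 0) = C (p.coeff 0) from rfl, mul_comm,
      ← smul_eq_C_mul, map_smul, map_sub, ← smul_eq_C_mul, map_smul, hΔ1]
    simp
  · obtain ⟨j, hj⟩ := Finsupp.support_nonempty_iff.2 hm
    have hle : Finsupp.single j 1 ≤ m :=
      Finsupp.single_le_iff.2 (Nat.one_le_iff_ne_zero.2 (Finsupp.mem_support_iff.1 hj))
    refine topFun_eq_zero_of_mem hf ?_
    rw [show monomial m (p.coeff m) = monomial (m - Finsupp.single j 1) (p.coeff m) * X j by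
      rw [X, monomial_mul, mul_one, tsub_add_cancel_of_le hle]]
    rw [show ∀ q r : MvPolynomial (Fin n) O, (a - C (topFun f D a) * Δ) * (q * r) =
      q * (a * r) - q * C (topFun f D a) * (Δ * r) from fun q r => by ring]
    exact Ideal.sub_mem _ (Ideal.mul_mem_left _ _ (ha j)) (Ideal.mul_mem_left _ _ (hΔ j))

end Fermat.Agent.NumCrit
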