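import Fermat.Agent.NumCrit.Defs
import Fermat.Agent.NumCrit.LengthDet
import Fermat.Agent.NumCrit.MonicSocle
import Mathlib.RingTheory.MvPolynomial.Ideal
import Mathlib.RingTheory.IntegralClosure.Algebra.Basic
import Mathlib.RingTheory.Ideal.GoingUp
import Mathlib.RingTheory.Nakayama
import Mathlib.RingTheory.LocalRing.Basic
import Mathlib.Algebra.Polynomial.Monic
import Mathlib.LinearAlgebra.Dimension.Constructions

/-!
Augmented finite algebras over a discrete valuation ring: linear relations, and a monic
complete intersection mapping onto such an algebra with the same cotangent space.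
-/

set_option autoImplicit false

noncomputable section

namespace Fermat.Agent.NumCrit

open MvPolynomial IsLocalRing

variable {O : Type*} [CommRing O] {A : Type*} [CommRing A] [Algebra O A]

section General

theorem constantCoeff_coeff_single_mul {n : ℕ} (p q : MvPolynomial (Fin n) O) (j : Fin n) :
    coeff (Finsupp.single j 1) (p * q) =
      constantCoeff p * coeff (Finsupp.single j 1) q +
        coeff (Finsupp.single j 1) p * constantCoeff q := by
  classical
  rw [coeff_mul, Finsupp.antidiagonal_single, Finset.sum_map, Finset.Nat.sum_antidiagonal_succ]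
  simp [constantCoeff_eq]

theorem coeff_single_sum_X {n : ℕ} (a : Fin n → MvPolynomial (Fin n) O) (j : Fin n) :
    coeff (Finsupp.single j 1) (∑ i, a i * X i) = constantCoeff (a j) := by
  classical
  simp [coeff_sum, constantCoeff_coeff_single_mul, MvPolynomial.coeff_X, Finsupp.single_eq_single_iff]

variable (π : A →ₐ[O] O)

theorem ker_sq_smul_of_annihilates {t y : A} (ht : ∀ z : A, π z = 0 → t * z = 0) (hy : π y = 0) :
    π t • y ∈ RingHom.ker π ^ 2 := by
  have h1 : π t • y = (algebraMap O A (π t) - t) * y := by
    rw [sub_mul, ht y hy, sub_zero, Algebra.smul_def]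
  rw [h1, pow_two]
  exact Ideal.mul_mem_mul (by simp [RingHom.mem_ker, π.commutes]) hy

end General

section Lattice

variable (π : A →ₐ[O] O) {n : ℕ} (x : Fin n → A)

/-- `v ↦ ∑ vⱼ xⱼ` modulo `(ker π)²`. -/
def cotMap (hx : ∀ j, π (x j) = 0) : (Fin n → O) →ₗ[O] (RingHom.ker π).Cotangent :=
  ((RingHom.ker π).toCotangent.restrictScalars O) ∘ₗ
    (Fintype.linearCombination O fun j => (⟨x j, hx j⟩ : RingHom.ker π))

/-- The lattice of linear relations modulo `(ker π)²`. -/
def relLat : Submodule O (Fin n → O) :=
  ((RingHom.ker π ^ 2).restrictScalars O).comap (Fintype.linearCombination O x)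

theorem mem_relLat {v : Fin n → O} :
    v ∈ relLat π x ↔ ∑ j, v j • x j ∈ RingHom.ker π ^ 2 := by
  simp [relLat, Fintype.linearCombination_apply]

theorem ker_cotMap (hx : ∀ j, π (x j) = 0) : LinearMap.ker (cotMap π x hx) = relLat π x := by
  ext v
  rw [LinearMap.mem_ker, mem_relLat, cotMap, LinearMap.comp_apply, LinearMap.restrictScalars_apply,
    Ideal.toCotangent_eq_zero]
  simp [Fintype.linearCombination_apply]

theorem cotMap_surjective (hx : ∀ j, π (x j) = 0)
    (hspan : Ideal.span (Set.range x) = RingHom.ker π) : Function.Surjective (cotMap π x hx) := by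
  intro z
  obtain ⟨⟨y, hy⟩, rfl⟩ := Ideal.toCotangent_surjective _ z
  obtain ⟨a, ha⟩ := Ideal.mem_span_range_iff_exists_fun.1 (hspan.symm ▸ hy : y ∈ Ideal.span _)
  refine ⟨fun j => π (a j), ?_⟩
  change (RingHom.ker π).toCotangent (Fintype.linearCombination O _ fun j => π (a j)) =
    (RingHom.ker π).toCotangent ⟨y, hy⟩
  rw [Ideal.toCotangent_eq]
  simp only [Fintype.linearCombination_apply, Submodule.coe_sum, Submodule.coe_smul_of_tower,
    ← ha, ← Finset.sum_sub_distrib, Algebra.smul_def, ← sub_mul]
  refine Ideal.sum_mem _ fun j _ => ?_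
  rw [pow_two]
  exact Ideal.mul_mem_mul (by simp [RingHom.mem_ker, π.commutes]) (hx j)

theorem length_cotangent_eq (hx : ∀ j, π (x j) = 0)
    (hspan : Ideal.span (Set.range x) = RingHom.ker π) :
    Module.length O (RingHom.ker π).Cotangent = Module.length O ((Fin n → O) ⧸ relLat π x) := by
  rw [← ker_cotMap π x hx]
  exact ((cotMap π x hx).quotKerEquivOfSurjective
    (cotMap_surjective π x hx hspan)).length_eq.symm

theorem smul_mem_relLat (hx : ∀ j, π (x j) = 0) {c : O} (hc : c ∈ congIdeal π) (v : Fin n → O) :
    c • v ∈ relLat π x := by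
  obtain ⟨t, ht, rfl⟩ := mem_congIdeal.1 hc
  rw [mem_relLat]
  simp only [Pi.smul_apply, smul_eq_mul, mul_smul]
  refine Ideal.sum_mem _ fun j _ => ker_sq_smul_of_annihilates π ht ?_
  rw [map_smul, hx j, smul_zero]

end Lattice

section Polys

variable [IsLocalRing O] [IsLocalRing A] [IsNoetherianRing O] [Module.Finite O A]

theorem exists_maximalIdeal_pow_le :
    ∃ N, maximalIdeal A ^ N ≤ (maximalIdeal O).map (algebraMap O A) := by
  have : IsNoetherianRing A := IsNoetherianRing.of_finite O A
  refine Ideal.exists_pow_le_of_le_radical_of_fg ?_ (maximalIdeal A).fg_of_isNoetherianRing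
  rw [Ideal.radical_eq_sInf]
  refine le_sInf fun P hP => ?_
  have := hP.2
  have hcomap : P.comap (algebraMap O A) = maximalIdeal O :=
    ((maximalIdeal.isMaximal O).eq_of_le (Ideal.IsPrime.ne_top inferInstance)
      (Ideal.map_le_iff_le_comap.1 hP.1)).symm
  have hPmax : P.IsMaximal := Ideal.isMaximal_of_isIntegral_of_isMaximal_comap P
    (hcomap.symm ▸ maximalIdeal.isMaximal O)
  exact (IsLocalRing.eq_maximalIdeal hPmax).ge

/-- A subalgebra containing generators modulo high powers of the maximal ideal is everything. -/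
theorem eq_top_of_forall_sub_mem (P : Subalgebra O A)
    (h : ∀ (N : ℕ) (a : A), ∃ p ∈ P, a - p ∈ maximalIdeal A ^ N) : P = ⊤ := by
  obtain ⟨N, hN⟩ := exists_maximalIdeal_pow_le (O := O) (A := A)
  have htop : (⊤ : Submodule O A) ≤
      P.toSubmodule ⊔ maximalIdeal O • (⊤ : Submodule O A) := fun a _ => by
    obtain ⟨p, hp, hpa⟩ := h N a
    rw [Ideal.smul_top_eq_map]
    exact Submodule.mem_sup.2 ⟨p, hp, a - p, hN hpa, by ring⟩
  have := Submodule.le_of_le_smul_of_le_jacobson_bot Module.Finite.fg_top
    (IsLocalRing.maximalIdeal_le_jacobson ⊥) htop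
  exact Algebra.eq_top_iff.2 fun a => this Submodule.mem_top

theorem aeval_surjective_of_span_eq_ker (π : A →ₐ[O] O) {n : ℕ} (x : Fin n → A)
    (hspan : Ideal.span (Set.range x) = RingHom.ker π) :
    Function.Surjective (aeval (R := O) x) := by
  have hle : RingHom.ker π ≤ maximalIdeal A :=
    IsLocalRing.le_maximalIdeal (RingHom.ker_ne_top π.toRingHom)
  have key : ∀ (N : ℕ) (a : A), ∃ p ∈ (aeval (R := O) x).range, a - p ∈ RingHom.ker π ^ N := by
    intro N
    induction N with
    | zero => exact fun a => ⟨0, Subalgebra.zero_mem _, by simp⟩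
    | succ N ih =>
      intro a
      have ha : a - algebraMap O A (π a) ∈ Ideal.span (Set.range x) := by
        rw [hspan]
        exact sub_algebraMap_mem_ker π a
      obtain ⟨c, hc⟩ := Ideal.mem_span_range_iff_exists_fun.1 ha
      choose p hp hpc using fun j => ih (c j)
      refine ⟨algebraMap O A (π a) + ∑ j, p j * x j, Subalgebra.add_mem _
        (Subalgebra.algebraMap_mem _ _) (Subalgebra.sum_mem _ fun j _ =>
          Subalgebra.mul_mem _ (hp j) ⟨X j, aeval_X x j⟩), ?_⟩
      rw [sub_add_eq_sub_sub, ← hc, ← Finset.sum_sub_distrib, pow_succ]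
      refine Ideal.sum_mem _ fun j _ => ?_
      rw [← sub_mul]
      exact Ideal.mul_mem_mul (hpc j) (hspan ▸ Ideal.subset_span ⟨j, rfl⟩)
  intro a
  have := eq_top_of_forall_sub_mem (aeval (R := O) x).range fun N a => by
    obtain ⟨p, hp, hpa⟩ := key N a
    exact ⟨p, hp, Ideal.pow_right_mono hle N hpa⟩
  exact (this ▸ Algebra.mem_top : a ∈ (aeval (R := O) x).range)

end Polys

section System

theorem aug_comp_aeval (π : A →ₐ[O] O) {n : ℕ} {x : Fin n → A} (hx : ∀ j, π (x j) = 0)
    (q : MvPolynomial (Fin n) O) : π (aeval x q) = constantCoeff q := by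
  rw [← AlgHom.comp_apply, comp_aeval, show (fun j => π (x j)) = 0 from funext hx, aeval_zero]
  rfl

variable [IsDomain O] [IsPrincipalIdealRing O] [IsLocalRing O]

/-- Monic complete intersection with the same linear relations as `A`. -/
theorem exists_monicSys [IsLocalRing A] [Module.Finite O A] (π : A →ₐ[O] O) {n : ℕ}
    (x : Fin n → A) (hspan : Ideal.span (Set.range x) = RingHom.ker π) (hη : congIdeal π ≠ ⊥) :
    ∃ (f : Fin n → MvPolynomial (Fin n) O) (D : ℕ), IsMonicSys f D ∧
      (∀ i, constantCoeff (f i) = 0) ∧ (∀ i, aeval x (f i) = 0) ∧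
      Submodule.span O (Set.range fun i => linMat f i) = relLat π x ∧ (linMat f).det ≠ 0 := by
  classical
  have hx : ∀ j, π (x j) = 0 := fun j =>
    RingHom.mem_ker.1 (hspan ▸ Ideal.subset_span ⟨j, rfl⟩)
  have hsurj := aeval_surjective_of_span_eq_ker π x hspan
  obtain ⟨c, hc, hc0⟩ := (congIdeal π).ne_bot_iff.1 hη
  -- a basis of the lattice of relations
  obtain ⟨m, bL⟩ := Submodule.basisOfPid (Pi.basisFun O (Fin n)) (relLat π x)
  have e1 : Module.finrank O (relLat π x) = m := by
    rw [Module.finrank_eq_card_basis bL, Fintype.card_fin]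
  have e2 : Module.finrank O (Fin n → O) = n := Module.finrank_fin_fun O
  obtain rfl : m = n := by
    refine le_antisymm ?_ ?_
    · rw [← e1]
      exact (Submodule.finrank_le (relLat π x)).trans e2.le
    · let sc : (Fin n → O) →ₗ[O] relLat π x :=
        LinearMap.codRestrict (relLat π x) (c • (LinearMap.id : (Fin n → O) →ₗ[O] (Fin n → O)))
          fun v => by
            rw [LinearMap.smul_apply, LinearMap.id_apply]
            exact smul_mem_relLat π x hx hc v
      have hsc : Function.Injective sc := fun v w hvw => by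
        have h := congrArg Subtype.val hvw
        exact smul_right_injective (Fin n → O) hc0 h
      have := LinearMap.finrank_le_finrank_of_injective hsc
      omega
  let v : Fin m → Fin m → O := fun i => (bL i : Fin m → O)
  have hv : Submodule.span O (Set.range v) = relLat π x := by
    have := congrArg (Submodule.map (relLat π x).subtype) bL.span_eq
    rw [Submodule.map_span, Submodule.map_top, Submodule.range_subtype, ← Set.range_comp] at this
    exact this
  -- lifts of the relations to polynomials
  have hg : ∀ i, ∃ g : MvPolynomial (Fin m) O, constantCoeff g = 0 ∧ aeval x g = 0 ∧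
      ∀ j, coeff (Finsupp.single j 1) g = v i j := by
    intro i
    have h2 : ∑ j, v i j • x j ∈ RingHom.ker π ^ 2 := (mem_relLat π x).1 (bL i).2
    have hmap : RingHom.ker π = (idealOfVars (Fin m) O).map (aeval x) := by
      rw [idealOfVars, Ideal.map_span, ← Set.range_comp, ← hspan]
      congr 2
      funext j; simp
    rw [hmap, ← Ideal.map_pow, Ideal.mem_map_iff_of_surjective _ hsurj] at h2
    obtain ⟨Q, hQ, hQx⟩ := h2
    have hQ' := (mem_pow_idealOfVars_iff' 2 Q).1 hQ
    refine ⟨∑ j, C (v i j) * X j - Q, ?_, ?_, fun j => ?_⟩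
    · rw [map_sub, map_sum, constantCoeff_eq, hQ' 0 (by simp)]
      simp
    · simp [hQx, Algebra.smul_def]
    · rw [coeff_sub, hQ' _ (by simp), sub_zero, coeff_single_sum_X]
      simp
  choose g hg0 hgx hgv using hg
  -- monic polynomials killed at `x`
  choose P hP hPx using fun i => Algebra.IsIntegral.isIntegral (R := O) (x i)
  let D : ℕ := Finset.univ.sup (fun i => (P i).natDegree) + Finset.univ.sup (fun i => (g i).totalDegree) + 2
  have hDP : ∀ i, (P i).natDegree + 2 ≤ D := fun i => by
    have := Finset.le_sup (f := fun i => (P i).natDegree) (Finset.mem_univ i)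
    omega
  have hDg : ∀ i, (g i).totalDegree < D := fun i => by
    have := Finset.le_sup (f := fun i => (g i).totalDegree) (Finset.mem_univ i)
    omega
  let G : Fin m → MvPolynomial (Fin m) O := fun i =>
    X i ^ (D - (P i).natDegree) * Polynomial.aeval (X i) (P i)
  have hG0 : ∀ i, constantCoeff (G i) = 0 := fun i => by
    simp [G, zero_pow (by have := hDP i; omega : D - (P i).natDegree ≠ 0)]
  have hG1 : ∀ i j, coeff (Finsupp.single j 1) (G i) = 0 := fun i j => by
    have e : G i = X i * (X i ^ (D - (P i).natDegree - 1) * Polynomial.aeval (X i) (P i)) := by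
      rw [← mul_assoc, ← pow_succ', Nat.sub_add_cancel (by have := hDP i; omega)]
    rw [e, constantCoeff_coeff_single_mul]
    simp [zero_pow (by have := hDP i; omega : D - (P i).natDegree - 1 ≠ 0)]
  have hGx : ∀ i, aeval x (G i) = 0 := fun i => by
    simp only [G, map_mul, ← Polynomial.aeval_algHom_apply, aeval_X]
    rw [show Polynomial.aeval (x i) (P i) = 0 from hPx i, mul_zero]
  refine ⟨fun i => g i + G i, D, ⟨by omega, fun i => ?_⟩, fun i => by simp [hg0, hG0],
    fun i => by simp [hgx, hGx], ?_, ?_⟩
  · have hPdeg : DegLT D (G i - X i ^ D) := by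
      have e : Polynomial.aeval (X i : MvPolynomial (Fin m) O) (P i) = X i ^ (P i).natDegree +
          ∑ l ∈ Finset.range (P i).natDegree, C ((P i).coeff l) * X i ^ l := by
        conv_lhs => rw [(hP i).as_sum]
        simp
      simp only [G]
      rw [e, mul_add, ← pow_add, Nat.sub_add_cancel (by have := hDP i; omega), add_sub_cancel_left,
        Finset.mul_sum]
      refine Finset.sum_induction _ (DegLT D) (fun _ _ => DegLT.add) (degLT_zero D) fun l hl => ?_
      rw [show X i ^ (D - (P i).natDegree) * (C ((P i).coeff l) * X i ^ l) =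
        monomial (Finsupp.single i (D - (P i).natDegree + l)) ((P i).coeff l) by
          rw [mul_left_comm, ← pow_add, C_mul_X_pow_eq_monomial]]
      refine (degLT_monomial _ _).mono ?_
      rw [Finsupp.degree_single]
      have := Finset.mem_range.1 hl
      have := hDP i
      omega
    have hgdeg : DegLT D (g i) := fun k hk => (le_totalDegree hk).trans_lt (hDg i)
    rw [add_sub_assoc]
    exact hgdeg.add hPdeg
  · rw [← hv]
    congr 2
    funext i j
    simp [linMat, hgv, hG1]
  · intro hdet
    obtain ⟨u, hu, hu0⟩ := Matrix.exists_vecMul_eq_zero_iff.2 hdet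
    have hlin : linMat (fun i => g i + G i) = Matrix.of v := by
      ext i j; simp [linMat, hgv, hG1]
    rw [hlin, Matrix.vecMul_eq_sum] at hu0
    refine hu ((Fintype.linearIndependent_iff.1 bL.linearIndependent u ?_) |> funext)
    apply Subtype.ext
    rw [Submodule.coe_sum]
    simp only [Submodule.coe_smul_of_tower, ZeroMemClass.coe_zero]
    exact hu0

end System

end Fermat.Agent.NumCrit
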