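import Fermat.Agent.NumCrit.Augmented

/-!
The numerical criterion of Wiles and Lenstra.
-/

set_option autoImplicit false

noncomputable section

namespace Fermat.Agent.NumCrit

open MvPolynomial IsLocalRing

universe u v w

variable {O : Type u} [CommRing O]

theorem exists_annihilates_aug_eq_det {A : Type v} [CommRing A] [Algebra O A] (π : A →ₐ[O] O)
    {n : ℕ} {x : Fin n → A} (hspan : Ideal.span (Set.range x) = RingHom.ker π)
    {f : Fin n → MvPolynomial (Fin n) O} {D : ℕ} (hf : IsMonicSys f D)
    (h0 : ∀ i, constantCoeff (f i) = 0) (hfx : ∀ i, aeval x (f i) = 0) :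
    ∃ Δ : MvPolynomial (Fin n) O, (∀ j, Δ * X j ∈ relIdeal f) ∧ topFun f D Δ = 1 ∧
      (∀ y, π y = 0 → aeval x Δ * y = 0) ∧ π (aeval x Δ) = (linMat f).det := by
  obtain ⟨Δ, hΔ, hΔ1, hΔ0⟩ := exists_socle hf h0
  refine ⟨Δ, hΔ, hΔ1, fun y hy => ?_, ?_⟩
  · obtain ⟨a, rfl⟩ := Ideal.mem_span_range_iff_exists_fun.1
      (hspan.symm ▸ (RingHom.mem_ker.2 hy) : y ∈ Ideal.span _)
    rw [Finset.mul_sum]
    refine Finset.sum_eq_zero fun j _ => ?_
    have h1 : aeval x (Δ * X j) = 0 := by
      obtain ⟨c, hc⟩ := Ideal.mem_span_range_iff_exists_fun.1 (hΔ j)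
      simp [← hc, hfx]
    rw [map_mul, aeval_X] at h1
    rw [mul_left_comm, h1, mul_zero]
  · rw [aug_comp_aeval π (fun j => RingHom.mem_ker.1 (hspan ▸ Ideal.subset_span ⟨j, rfl⟩)), hΔ0]

theorem det_mem_congIdeal {A : Type v} [CommRing A] [Algebra O A] (π : A →ₐ[O] O)
    {n : ℕ} {x : Fin n → A} (hspan : Ideal.span (Set.range x) = RingHom.ker π)
    {f : Fin n → MvPolynomial (Fin n) O} {D : ℕ} (hf : IsMonicSys f D)
    (h0 : ∀ i, constantCoeff (f i) = 0) (hfx : ∀ i, aeval x (f i) = 0) :
    (linMat f).det ∈ congIdeal π := by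
  obtain ⟨Δ, -, -, hann, hπ⟩ := exists_annihilates_aug_eq_det π hspan hf h0 hfx
  exact mem_congIdeal.2 ⟨_, hann, hπ⟩

variable [IsDomain O] [IsDiscreteValuationRing O]

/-- If the congruence ideal is generated by the determinant of the linear parts of a monic system
killed at the generators, every relation of `T` is a relation of the system up to a polynomial
with constant coefficient `1`. -/
theorem exists_mul_mem_relIdeal {T : Type w} [CommRing T] [Algebra O T] [Module.Finite O T]
    [Module.Free O T] (π : T →ₐ[O] O) {n : ℕ} {x : Fin n → T}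
    (hspan : Ideal.span (Set.range x) = RingHom.ker π)
    {f : Fin n → MvPolynomial (Fin n) O} {D : ℕ} (hf : IsMonicSys f D)
    (h0 : ∀ i, constantCoeff (f i) = 0) (hfx : ∀ i, aeval x (f i) = 0)
    (hd : (linMat f).det ≠ 0) (hη : congIdeal π ≤ Ideal.span {(linMat f).det}) :
    ∃ e : MvPolynomial (Fin n) O, constantCoeff e = 1 ∧
      ∀ q, aeval x q = 0 → e * q ∈ relIdeal f := by
  classical
  obtain ⟨Δ, hΔ, hΔ1, hann, hπ⟩ := exists_annihilates_aug_eq_det π hspan hf h0 hfx
  set d := (linMat f).det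
  set j := aeval x Δ
  have hne : congIdeal π ≠ ⊥ := fun h => hd (by
    have h' := det_mem_congIdeal π hspan hf h0 hfx
    rw [h] at h'
    exact h')
  let ι := Module.Free.ChooseBasisIndex O T
  let b : Module.Basis ι O T := Module.Free.chooseBasis O T
  -- `j` is primitive
  have hprim : ∃ i, IsUnit (b.repr j i) := by
    by_contra hcon
    push Not at hcon
    obtain ⟨ϖ, hϖ⟩ := IsDiscreteValuationRing.exists_irreducible O
    have hdvd : ∀ i, ϖ ∣ b.repr j i := fun i => by
      have : b.repr j i ∈ maximalIdeal O := (IsLocalRing.mem_maximalIdeal _).2 (hcon i)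
      rwa [hϖ.maximalIdeal_eq, Ideal.mem_span_singleton] at this
    choose r hr using hdvd
    set t := ∑ i, r i • b i with ht
    have hjt : j = ϖ • t := by
      rw [ht, Finset.smul_sum]
      conv_lhs => rw [← b.sum_repr j]
      exact Finset.sum_congr rfl fun i _ => by rw [hr, smul_smul]
    have htann : ∀ y, π y = 0 → t * y = 0 := fun y hy => by
      have h1 := hann y hy
      rw [hjt, smul_mul_assoc] at h1
      exact (smul_eq_zero.1 h1).resolve_left hϖ.ne_zero
    obtain ⟨a, ha⟩ := Ideal.mem_span_singleton'.1 (hη (mem_congIdeal.2 ⟨t, htann, rfl⟩))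
    have h2 : t - a • j = 0 := eq_zero_of_ann π hne
      (fun y hy => by rw [sub_mul, htann y hy, smul_mul_assoc, hann y hy, smul_zero, sub_zero])
      (by rw [map_sub, map_smul, hπ, smul_eq_mul, ha, sub_self])
    rw [sub_eq_zero] at h2
    have h3 : (1 - ϖ * a) • j = 0 := by rw [sub_smul, one_smul, ← smul_smul, ← h2, ← hjt, sub_self]
    rcases smul_eq_zero.1 h3 with h | h
    · exact hϖ.not_isUnit (isUnit_iff_exists_inv.2 ⟨a, (sub_eq_zero.1 h).symm⟩)
    · exact hd (by rw [← hπ, show j = 0 from h, map_zero])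
  obtain ⟨i₀, hi₀⟩ := hprim
  obtain ⟨u, hu⟩ := hi₀
  let μ : T →ₗ[O] O := (↑u⁻¹ : O) • b.coord i₀
  have hμj : μ j = 1 := by simp [μ, ← hu]
  have hker : ∀ q ∈ relIdeal f, aeval x q = 0 := fun q hq => by
    obtain ⟨c, rfl⟩ := Ideal.mem_span_range_iff_exists_fun.1 hq
    simp [hfx]
  obtain ⟨e, he⟩ := exists_topFun_mul_eq hf (μ ∘ₗ (aeval x).toLinearMap)
    fun q hq => by simp [hker q hq]
  refine ⟨e, ?_, fun q hq => mem_relIdeal_of_topFun_mul hf fun p => ?_⟩
  · have h1 : topFun f D (e * Δ) = 1 := by rw [he]; exact hμj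
    obtain ⟨c, hc⟩ := exists_eq_sum_mul_X (N := (e - C (constantCoeff e)).totalDegree)
      (p := e - C (constantCoeff e))
      (fun m hm => Nat.lt_succ_of_le (le_totalDegree hm)) (by simp)
    have h2 : topFun f D ((e - C (constantCoeff e)) * Δ) = 0 := by
      rw [hc.2, Finset.sum_mul]
      refine topFun_eq_zero_of_mem hf (Submodule.sum_mem _ fun k _ => ?_)
      rw [mul_assoc, mul_comm (X k)]
      exact Ideal.mul_mem_left _ _ (hΔ k)
    rw [sub_mul, map_sub, h1, ← smul_eq_C_mul, map_smul, hΔ1, smul_eq_mul, mul_one,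
      sub_eq_zero] at h2
    exact h2.symm
  · rw [mul_assoc, he]
    simp [hq]

variable {R : Type v} [CommRing R] [Algebra O R] [IsLocalRing R] [IsNoetherianRing R]
  {T : Type w} [CommRing T] [Algebra O T] [Module.Finite O T] [Module.Free O T]

omit [Module.Finite O T] [Module.Free O T] in
/-- The lifting step: `φ` is injective once the two cotangent spaces agree. -/
theorem injective_of_relLat_eq (φ : R →ₐ[O] T) (π : T →ₐ[O] O) {n : ℕ} (x' : Fin n → R)
    (hx' : Ideal.span (Set.range x') = RingHom.ker (π.comp φ))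
    (hsurj : Function.Surjective (aeval (R := O) fun j => φ (x' j)))
    {f : Fin n → MvPolynomial (Fin n) O} (h0 : ∀ i, constantCoeff (f i) = 0)
    (hd : (linMat f).det ≠ 0) (hrows : ∀ i, linMat f i ∈ relLat (π.comp φ) x')
    {e : MvPolynomial (Fin n) O} (he0 : constantCoeff e = 1)
    (he : ∀ q, aeval (fun j => φ (x' j)) q = 0 → e * q ∈ relIdeal f) :
    Function.Injective φ := by
  classical
  set πR := π.comp φ with hπR
  let x : Fin n → T := fun j => φ (x' j)
  have hx'0 : ∀ j, πR (x' j) = 0 := fun j =>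
    RingHom.mem_ker.1 (hx' ▸ Ideal.subset_span ⟨j, rfl⟩)
  let P : MvPolynomial (Fin n) O →ₐ[O] R := aeval x'
  have hφP : ∀ q, φ (P q) = aeval x q := fun q => by
    rw [← AlgHom.comp_apply]
    simp [P, comp_aeval, x]
  have hmax : RingHom.ker πR ≤ maximalIdeal R :=
    IsLocalRing.le_maximalIdeal (RingHom.ker_ne_top πR.toRingHom)
  have hπP : ∀ q, πR (P q) = constantCoeff q := fun q => aug_comp_aeval πR hx'0 q
  have hunit : ∀ r : R, πR r = 1 → IsUnit r := fun r hr => by
    by_contra hnu
    have h1 : r - (r - 1) ∈ maximalIdeal R :=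
      sub_mem ((IsLocalRing.mem_maximalIdeal r).2 hnu) (hmax (by simp [RingHom.mem_ker, hr]))
    rw [sub_sub_cancel] at h1
    exact (maximalIdeal.isMaximal R).ne_top ((Ideal.eq_top_iff_one _).2 h1)
  set K := RingHom.ker φ
  set F := Ideal.span (Set.range fun i => P (f i))
  have hKle : K ≤ RingHom.ker πR := fun r hr => by
    change π (φ r) = 0
    rw [RingHom.mem_ker.1 hr, map_zero]
  have hlift : ∀ r : R, ∃ q, r - P q ∈ K := fun r => by
    obtain ⟨q, hq⟩ := hsurj (φ r)
    exact ⟨q, by rw [RingHom.mem_ker, map_sub, hφP, hq, sub_self]⟩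
  have hmulK : ∀ {a : R}, a ∈ K → ∀ j, a * x' j ∈ RingHom.ker πR * K := fun {a} ha j => by
    rw [mul_comm a]
    exact Ideal.mul_mem_mul (hx'0 j) ha
  have hK1 : K ≤ F ⊔ RingHom.ker πR * K := fun r hr => by
    obtain ⟨a, ha⟩ := Ideal.mem_span_range_iff_exists_fun.1
      (hx'.symm ▸ hKle hr : r ∈ Ideal.span _)
    choose α hα using fun j => hlift (a j)
    set q := ∑ j, α j * X j with hq
    have hrq : r - P q ∈ RingHom.ker πR * K := by
      rw [hq, map_sum, ← ha, ← Finset.sum_sub_distrib]
      refine Ideal.sum_mem _ fun j _ => ?_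
      rw [map_mul, show P (X j) = x' j from aeval_X _ _, ← sub_mul]
      exact hmulK (hα j) j
    have hqx : aeval x q = 0 := by
      have h1 : r - P q ∈ K := (Ideal.mul_le_right : RingHom.ker πR * K ≤ K) hrq
      rwa [RingHom.mem_ker, map_sub, RingHom.mem_ker.1 hr, hφP, zero_sub, neg_eq_zero] at h1
    have hPF : P q ∈ F := by
      have h1 : P e * P q ∈ F := by
        obtain ⟨k, hk⟩ := Ideal.mem_span_range_iff_exists_fun.1 (he q hqx)
        rw [← map_mul, ← hk, map_sum]
        refine Ideal.sum_mem _ fun i _ => ?_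
        rw [map_mul]
        exact Ideal.mul_mem_left _ _ (Ideal.subset_span ⟨i, rfl⟩)
      exact (F.unit_mul_mem_iff_mem (hunit _ (by rw [hπP, he0]))).1 h1
    exact Submodule.mem_sup.2 ⟨_, hPF, _, hrq, by ring⟩
  have hKF : K ≤ F :=
    Submodule.le_of_le_smul_of_le_jacobson_bot K.fg_of_isNoetherianRing
      (hmax.trans (IsLocalRing.maximalIdeal_le_jacobson ⊥)) (by rwa [smul_eq_mul])
  have hF : F ≤ RingHom.ker πR * K := by
    have hb : ∀ i, ∃ b : Fin n → R, (∀ j, πR (b j) = 0) ∧
        ∑ j, algebraMap O R (linMat f i j) * x' j = ∑ j, b j * x' j := by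
      intro i
      have h1 : linMat f i ∈ relLat πR x' := hrows i
      rw [mem_relLat, pow_two] at h1
      simp only [Algebra.smul_def] at h1
      have h2 : RingHom.ker πR * RingHom.ker πR =
          RingHom.ker πR • Submodule.span R (Set.range x') := by
        rw [smul_eq_mul]
        congr 1
        exact hx'.symm
      rw [h2, Submodule.mem_ideal_smul_span_iff_exists_sum] at h1
      obtain ⟨a, ha, hsum⟩ := h1
      refine ⟨fun j => a j, fun j => ha j, ?_⟩
      rw [← hsum, Finsupp.sum_fintype _ _ (by simp)]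
      rfl
    choose b hb0 hb using hb
    choose β hβ using fun i j => hlift (b i j)
    have hβ0 : ∀ i j, constantCoeff (β i j) = 0 := fun i j => by
      have h1 : πR (b i j - P (β i j)) = 0 := hKle (hβ i j)
      rwa [map_sub, hb0, hπP, zero_sub, neg_eq_zero] at h1
    let g : Fin n → MvPolynomial (Fin n) O := fun i => ∑ j, (C (linMat f i j) - β i j) * X j
    have hgP : ∀ i, P (g i) ∈ RingHom.ker πR * K := fun i => by
      have e1 : P (g i) = ∑ j, (b i j - P (β i j)) * x' j := by
        simp only [g, map_sum, map_mul, map_sub, sub_mul, Finset.sum_sub_distrib]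
        simp [P, hb i]
      rw [e1]
      exact Ideal.sum_mem _ fun j _ => hmulK (hβ i j) j
    have hgx : ∀ i, aeval x (g i) = 0 := fun i => by
      rw [← hφP]
      exact RingHom.mem_ker.1 ((Ideal.mul_le_right : RingHom.ker πR * K ≤ K) (hgP i))
    choose k hk using fun i => Ideal.mem_span_range_iff_exists_fun.1 (he _ (hgx i))
    let C₀ : Matrix (Fin n) (Fin n) O := Matrix.of fun i l => constantCoeff (k i l)
    have hC : C₀ = 1 := by
      have h1 : C₀ * linMat f = linMat f := by
        ext i j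
        have h2 : ∀ l, coeff (Finsupp.single j 1) (k i l * f l) = C₀ i l * linMat f l j := fun l => by
          rw [constantCoeff_coeff_single_mul, h0, mul_zero, add_zero]; rfl
        have h3 : coeff (Finsupp.single j 1) (e * g i) = linMat f i j := by
          rw [constantCoeff_coeff_single_mul, he0, one_mul, coeff_single_sum_X]
          simp [g, hβ0]
        rw [← h3, ← hk i, coeff_sum, Matrix.mul_apply]
        exact Finset.sum_congr rfl fun l _ => (h2 l).symm
      have h4 : (C₀ - 1) * linMat f * (linMat f).adjugate = 0 := by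
        rw [sub_mul, one_mul, h1, sub_self, zero_mul]
      rw [mul_assoc, Matrix.mul_adjugate, mul_smul_comm, mul_one] at h4
      exact sub_eq_zero.1 ((smul_eq_zero.1 h4).resolve_left hd)
    let M : Matrix (Fin n) (Fin n) R := Matrix.of fun i l => P (k i l)
    have hMdet : IsUnit M.det := hunit _ <| by
      rw [AlgHom.map_det]
      rw [show πR.mapMatrix M = C₀ from Matrix.ext fun i l => hπP _, hC, Matrix.det_one]
    let Fv : Fin n → R := fun l => P (f l)
    have hMF : ∀ i, M.mulVec Fv i ∈ RingHom.ker πR * K := fun i => by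
      have e1 : M.mulVec Fv i = P (e * g i) := by
        rw [← hk i, map_sum]
        simp only [map_mul]
        rfl
      rw [e1, map_mul]
      exact Ideal.mul_mem_left _ _ (hgP i)
    refine Ideal.span_le.2 ?_
    rintro _ ⟨l, rfl⟩
    have h5 : M.det * Fv l = M.adjugate.mulVec (M.mulVec Fv) l := by
      rw [Matrix.mulVec_mulVec, Matrix.adjugate_mul, Matrix.smul_mulVec, Matrix.one_mulVec]
      rfl
    refine (Ideal.unit_mul_mem_iff_mem _ hMdet).1 ?_
    change M.det * Fv l ∈ _
    rw [h5]
    exact Submodule.sum_mem (RingHom.ker πR * K) (t := Finset.univ) fun i _ => Ideal.mul_mem_left _ _ (hMF i)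
  have hK0 : K = ⊥ := le_bot_iff.1 <|
    Submodule.le_of_le_smul_of_le_jacobson_bot K.fg_of_isNoetherianRing
      (hmax.trans (IsLocalRing.maximalIdeal_le_jacobson ⊥))
      (by rw [smul_eq_mul, bot_sup_eq]; exact hKF.trans hF)
  exact (RingHom.injective_iff_ker_eq_bot φ).2 hK0

/-- **Numerical criterion** (Wiles, Lenstra). -/
theorem bijective_of_length_cotangent_le (φ : R →ₐ[O] T) (hφ : Function.Surjective φ)
    (π : T →ₐ[O] O) (hη : congIdeal π ≠ ⊥)
    (h : Module.length O (RingHom.ker (π.comp φ)).Cotangent ≤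
      Module.length O (O ⧸ congIdeal π)) :
    Function.Bijective φ := by
  classical
  refine ⟨?_, hφ⟩
  set πR := π.comp φ with hπR
  have : Nontrivial T := (π : T →+* O).domain_nontrivial
  have : IsLocalRing T := IsLocalRing.of_surjective' (φ : R →+* T) hφ
  obtain ⟨n, x', hx'⟩ := Submodule.fg_iff_exists_fin_generating_family.1
    (RingHom.ker πR).fg_of_isNoetherianRing
  replace hx' : Ideal.span (Set.range x') = RingHom.ker πR := hx'
  have hx'0 : ∀ j, πR (x' j) = 0 := fun j =>
    RingHom.mem_ker.1 (hx' ▸ Ideal.subset_span ⟨j, rfl⟩)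
  let x : Fin n → T := fun j => φ (x' j)
  have hspan : Ideal.span (Set.range x) = RingHom.ker π := by
    rw [show x = φ ∘ x' from rfl, Set.range_comp, ← Ideal.map_span, hx']
    ext y
    rw [Ideal.mem_map_iff_of_surjective _ hφ]
    exact ⟨fun ⟨r, hr, hry⟩ => by rw [← hry]; exact hr, fun hy => by
      obtain ⟨r, rfl⟩ := hφ y
      exact ⟨r, hy, rfl⟩⟩
  have hx0 : ∀ j, π (x j) = 0 := hx'0
  have hsurj := aeval_surjective_of_span_eq_ker π x hspan
  obtain ⟨f, D, hf, h0, hfx, hrows, hd⟩ := exists_monicSys π x hspan hη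
  -- lengths
  have hTlen : Module.length O ((Fin n → O) ⧸ relLat π x) = Ring.ord O (linMat f).det := by
    rw [← hrows]; exact length_quotient_rows_eq_ord_det _ hd
  obtain ⟨c, hc⟩ := IsPrincipalIdealRing.principal (congIdeal π)
  replace hc : congIdeal π = Ideal.span {c} := hc
  have hcd : c ∣ (linMat f).det :=
    Ideal.mem_span_singleton.1 (hc ▸ det_mem_congIdeal π hspan hf h0 hfx)
  have hle : relLat πR x' ≤ relLat π x := fun v hv => by
    rw [mem_relLat] at hv ⊢
    have h1 := Ideal.mem_map_of_mem (φ : R →+* T) hv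
    rw [Ideal.map_pow] at h1
    have h2 : (RingHom.ker πR).map (φ : R →+* T) ≤ RingHom.ker π :=
      Ideal.map_le_iff_le_comap.2 fun r hr => hr
    have h3 := Ideal.pow_right_mono h2 2 h1
    simpa [x] using h3
  let g : ((Fin n → O) ⧸ relLat πR x') →ₗ[O] ((Fin n → O) ⧸ relLat π x) := Submodule.factor hle
  have hg : Function.Surjective g := Submodule.factor_surjective hle
  rw [length_cotangent_eq πR x' hx'0 hx', hc, length_quotient_span_singleton] at h
  have hge := Module.length_le_of_surjective g hg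
  rw [hTlen] at hge
  have hcdle : Ring.ord O c ≤ Ring.ord O (linMat f).det := Ring.ord_le_ord_of_dvd hcd
  have hassoc : Associated c (linMat f).det :=
    associated_of_dvd_of_ord_le hd hcd (hge.trans h)
  have hηd : congIdeal π ≤ Ideal.span {(linMat f).det} := by
    rw [hc, Ideal.span_singleton_eq_span_singleton.2 hassoc]
  have heq : relLat πR x' = relLat π x := by
    refine le_antisymm hle fun v hv => ?_
    have hadd := Module.length_eq_add_of_exact (LinearMap.ker g).subtype g
      (Submodule.injective_subtype _) hg (LinearMap.exact_subtype_ker_map g)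
    rw [hTlen] at hadd
    have h4 : Module.length O (LinearMap.ker g) + Ring.ord O (linMat f).det ≤
        0 + Ring.ord O (linMat f).det := by
      rw [← hadd, zero_add]
      exact h.trans hcdle
    have h5 : Module.length O (LinearMap.ker g) = 0 :=
      nonpos_iff_eq_zero.1 (WithTop.le_of_add_le_add_right (ord_ne_top hd) h4)
    rw [Module.length_eq_zero_iff] at h5
    have hmem : (relLat πR x').mkQ v ∈ LinearMap.ker g :=
      LinearMap.mem_ker.2 ((Submodule.Quotient.mk_eq_zero (relLat π x)).2 hv)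
    have h6 := congrArg Subtype.val (Subsingleton.elim (⟨_, hmem⟩ : LinearMap.ker g) 0)
    exact (Submodule.Quotient.mk_eq_zero (relLat πR x')).1 h6
  obtain ⟨e, he0, he⟩ := exists_mul_mem_relIdeal π hspan hf h0 hfx hd hηd
  exact injective_of_relLat_eq φ π x' hx' hsurj h0 hd
    (fun i => by rw [heq, ← hrows]; exact Submodule.subset_span ⟨i, rfl⟩) he0 he

end Fermat.Agent.NumCrit
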