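import Mathlib.Algebra.MvPolynomial.Degrees
import Mathlib.Algebra.MvPolynomial.Monad
import Mathlib.Data.Finsupp.Weight
import Mathlib.LinearAlgebra.Matrix.Block
import Mathlib.LinearAlgebra.Matrix.NonsingularInverse
import Mathlib.RingTheory.MvPolynomial.Basic
import Mathlib.RingTheory.Finiteness.Basic
import Mathlib.RingTheory.Ideal.Quotient.Operations
import Mathlib.Tactic.LinearCombination

/-!
The algebra `O[X₁,…,Xₙ]/(f₁,…,fₙ)` for `fᵢ = Xᵢ ^ D + (total degree < D)`: it is spanned by the
monomials with exponents `< D`, the coefficient of the top monomial gives a perfect pairing, and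
the annihilator of the variables is generated by the determinant of a matrix expressing the `fᵢ`
in the `Xⱼ`.
-/

set_option autoImplicit false

noncomputable section

namespace Fermat.Agent.NumCrit

open MvPolynomial

variable {O : Type*} [CommRing O] {n : ℕ}

/-- All lower terms have degree `< D`. -/
def IsMonicSys (f : Fin n → MvPolynomial (Fin n) O) (D : ℕ) : Prop :=
  2 ≤ D ∧ ∀ i, ∀ m ∈ (f i - X i ^ D).support, m.degree < D

variable (f : Fin n → MvPolynomial (Fin n) O) (D : ℕ)

/-- The ideal of relations. -/
def relIdeal : Ideal (MvPolynomial (Fin n) O) := Ideal.span (Set.range f)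

/-- The coefficient of the top monomial of the normal form of a monomial. -/
def lamMono (a : Fin n →₀ ℕ) : O :=
  if h : ∃ i, D ≤ a i then
    -∑ m ∈ (f h.choose - X h.choose ^ D).support,
      if _hm : m.degree < D then
        (f h.choose - X h.choose ^ D).coeff m *
          lamMono (a - Finsupp.single h.choose D + m)
      else 0
  else if ∀ i, a i + 1 = D then 1 else 0
termination_by a.degree
decreasing_by
  have hle : Finsupp.single h.choose D ≤ a := Finsupp.single_le_iff.2 h.choose_spec
  have h1 : (a - Finsupp.single h.choose D).degree + D = a.degree := by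
    conv_rhs => rw [← tsub_add_cancel_of_le hle, map_add, Finsupp.degree_single]
  rw [map_add]
  omega

/-- The coefficient of the top monomial in the normal form. -/
def topFun : MvPolynomial (Fin n) O →ₗ[O] O :=
  (MvPolynomial.basisMonomials (Fin n) O).constr O (lamMono f D)

theorem topFun_monomial (a : Fin n →₀ ℕ) (c : O) :
    topFun f D (monomial a c) = c * lamMono f D a := by
  have h1 : (monomial a c : MvPolynomial (Fin n) O) =
      c • (MvPolynomial.basisMonomials (Fin n) O) a := by
    rw [MvPolynomial.coe_basisMonomials, smul_monomial, smul_eq_mul, mul_one]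
  rw [h1, map_smul, topFun, Module.Basis.constr_basis, smul_eq_mul]

theorem topFun_mul_eq_sum (q : MvPolynomial (Fin n) O) (a : Fin n →₀ ℕ) :
    topFun f D (monomial a 1 * q) = ∑ m ∈ q.support, q.coeff m * lamMono f D (a + m) := by
  conv_lhs => rw [q.as_sum, Finset.mul_sum, map_sum]
  simp [monomial_mul, topFun_monomial]

variable {f} {D}

theorem lamMono_of_big (hf : IsMonicSys f D) {a : Fin n →₀ ℕ} (h : ∃ i, D ≤ a i) :
    lamMono f D a =
      -topFun f D (monomial (a - Finsupp.single h.choose D) 1 * (f h.choose - X h.choose ^ D)) := by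
  rw [lamMono, dif_pos h, topFun_mul_eq_sum]
  congr 1
  exact Finset.sum_congr rfl fun m hm => by rw [dif_pos (hf.2 _ m hm)]

theorem degree_sub_single {a : Fin n →₀ ℕ} {j : Fin n} (h : D ≤ a j) :
    (a - Finsupp.single j D).degree + D = a.degree := by
  conv_rhs => rw [← tsub_add_cancel_of_le (Finsupp.single_le_iff.2 h), map_add,
    Finsupp.degree_single]

theorem degree_eq_top {a : Fin n →₀ ℕ} (h : ∀ i, a i + 1 = D) : a.degree = n * (D - 1) := by
  have h' : ∀ i, a i = D - 1 := fun i => by have := h i; omega
  simp [Finsupp.degree_eq_sum, h']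

/-- Vanishing at and below the top degree. -/
theorem lamMono_eq_zero (hf : IsMonicSys f D) {a : Fin n →₀ ℕ}
    (h : a.degree ≤ n * (D - 1)) (ha : ¬ ∀ i, a i + 1 = D) : lamMono f D a = 0 := by
  induction hn : a.degree using Nat.strong_induction_on generalizing a with
  | _ N ih =>
  subst hn
  by_cases hb : ∃ i, D ≤ a i
  · rw [lamMono_of_big hf hb, topFun_mul_eq_sum, neg_eq_zero]
    refine Finset.sum_eq_zero fun m hm => ?_
    have hm' := hf.2 _ m hm
    have hlt : (a - Finsupp.single hb.choose D + m).degree < a.degree := by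
      have := degree_sub_single hb.choose_spec
      rw [map_add]
      omega
    rw [ih _ hlt (hlt.le.trans h) (fun hall => ?_) rfl, mul_zero]
    have := degree_eq_top hall
    omega
  · rw [lamMono, dif_neg hb, if_neg ha]

theorem lamMono_top {a : Fin n →₀ ℕ} (ha : ∀ i, a i + 1 = D) :
    lamMono f D a = 1 := by
  rw [lamMono, dif_neg (fun ⟨i, hi⟩ => by have := ha i; omega), if_pos ha]

theorem topFun_monomial_mul_f (hf : IsMonicSys f D) (a : Fin n →₀ ℕ) (i : Fin n) :
    topFun f D (monomial a 1 * f i) = 0 := by
  induction hn : a.degree using Nat.strong_induction_on generalizing a i with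
  | _ N ih =>
  subst hn
  have hsplit : f i = monomial (Finsupp.single i D) 1 + (f i - X i ^ D) := by
    rw [X_pow_eq_monomial]; ring
  rw [hsplit, mul_add, map_add, monomial_mul, mul_one, topFun_monomial, one_mul]
  have hbig : ∃ j, D ≤ (a + Finsupp.single i D) j := ⟨i, by simp⟩
  rw [lamMono_of_big hf hbig]
  have hj := hbig.choose_spec
  generalize hbig.choose = j at hj
  rcases eq_or_ne j i with rfl | hji
  · rw [add_tsub_cancel_right]
    ring
  have haj : D ≤ a j := by
    simpa [Finsupp.single_eq_of_ne hji] using hj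
  set b := a - Finsupp.single j D with hb
  have hab : a = b + Finsupp.single j D := (tsub_add_cancel_of_le (Finsupp.single_le_iff.2 haj)).symm
  have hbdeg : b.degree + D = a.degree := degree_sub_single haj
  have hsub : a + Finsupp.single i D - Finsupp.single j D = b + Finsupp.single i D := by
    rw [hab, add_right_comm, add_tsub_cancel_right]
  rw [hsub, hab]
  set Li := f i - X i ^ D with hLi
  set Lj := f j - X j ^ D with hLj
  -- `T (X^b L f_k) = 0` for `L` of degree `< D`
  have key : ∀ (k l : Fin n), topFun f D (monomial b 1 * (f l - X l ^ D) * f k) = 0 := by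
    intro k l
    rw [MvPolynomial.as_sum (f l - X l ^ D), Finset.mul_sum, Finset.sum_mul, map_sum]
    refine Finset.sum_eq_zero fun m hm => ?_
    have hlt : (b + m).degree < a.degree := by
      have := hf.2 l m hm
      rw [map_add]; omega
    have e : monomial b 1 * monomial m ((f l - X l ^ D).coeff m) * f k =
        (f l - X l ^ D).coeff m • (monomial (b + m) 1 * f k) := by
      rw [monomial_mul, one_mul, ← smul_mul_assoc, smul_monomial, smul_eq_mul, mul_one]
    rw [e, map_smul, ih _ hlt (b + m) k rfl, smul_zero]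
  have k1 := key j i
  have k2 := key i j
  have e1 : monomial b 1 * Li * f j =
      monomial (b + Finsupp.single j D) 1 * Li + monomial b 1 * (Li * Lj) := by
    rw [show monomial (b + Finsupp.single j D) (1 : O) = monomial b 1 * X j ^ D by
      rw [X_pow_eq_monomial, monomial_mul, one_mul]]
    rw [hLj]; ring
  have e2 : monomial b 1 * Lj * f i =
      monomial (b + Finsupp.single i D) 1 * Lj + monomial b 1 * (Li * Lj) := by
    rw [show monomial (b + Finsupp.single i D) (1 : O) = monomial b 1 * X i ^ D by
      rw [X_pow_eq_monomial, monomial_mul, one_mul]]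
    rw [hLi]; ring
  rw [e1, map_add] at k1
  rw [e2, map_add] at k2
  linear_combination k1 - k2

theorem topFun_eq_zero_of_mem (hf : IsMonicSys f D) {q : MvPolynomial (Fin n) O}
    (hq : q ∈ relIdeal f) : topFun f D q = 0 := by
  obtain ⟨c, rfl⟩ := Ideal.mem_span_range_iff_exists_fun.1 hq
  rw [map_sum]
  refine Finset.sum_eq_zero fun i _ => ?_
  conv_lhs => rw [(c i).as_sum, Finset.sum_mul, map_sum]
  refine Finset.sum_eq_zero fun m _ => ?_
  have e : monomial m ((c i).coeff m) * f i = (c i).coeff m • (monomial m 1 * f i) := by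
    rw [← smul_mul_assoc, smul_monomial, smul_eq_mul, mul_one]
  rw [e, map_smul, topFun_monomial_mul_f hf, smul_zero]

/-- Exponents all `< D`, as a finite type. -/
def smallExp (a : Fin n → Fin D) : Fin n →₀ ℕ := Finsupp.equivFunOnFinite.symm fun i => (a i : ℕ)

@[simp] theorem smallExp_apply (a : Fin n → Fin D) (i : Fin n) : smallExp a i = (a i : ℕ) := rfl

theorem smallExp_degree (a : Fin n → Fin D) : (smallExp a).degree = ∑ i, (a i : ℕ) := by
  simp [Finsupp.degree_eq_sum]

theorem exists_sum_small_sub_mem (hf : IsMonicSys f D) (q : MvPolynomial (Fin n) O) :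
    ∃ c : (Fin n → Fin D) → O, q - ∑ a, monomial (smallExp a) (c a) ∈ relIdeal f := by
  let S : Submodule O (MvPolynomial (Fin n) O) :=
    Submodule.span O (Set.range fun a : Fin n → Fin D => monomial (smallExp a) (1 : O)) ⊔
      (relIdeal f).restrictScalars O
  have hmono : ∀ a : Fin n →₀ ℕ, monomial a (1 : O) ∈ S := by
    intro a
    induction hn : a.degree using Nat.strong_induction_on generalizing a with
    | _ N ih =>
    subst hn
    by_cases hb : ∃ i, D ≤ a i
    · obtain ⟨i, hi⟩ := hb
      set b := a - Finsupp.single i D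
      have hab : monomial a (1 : O) = monomial b 1 * f i - monomial b 1 * (f i - X i ^ D) := by
        rw [mul_sub, sub_sub_cancel, X_pow_eq_monomial, monomial_mul, one_mul,
          tsub_add_cancel_of_le (Finsupp.single_le_iff.2 hi)]
      rw [hab]
      refine S.sub_mem (Submodule.mem_sup_right ?_) ?_
      · exact Ideal.mul_mem_left _ _ (Ideal.subset_span ⟨i, rfl⟩)
      · rw [MvPolynomial.as_sum (f i - X i ^ D), Finset.mul_sum]
        refine S.sum_mem fun m hm => ?_
        rw [monomial_mul, one_mul, ← mul_one (coeff m (f i - X i ^ D)), ← smul_eq_mul,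
          ← smul_monomial]
        refine S.smul_mem _ (ih _ ?_ _ rfl)
        have : b.degree + D = a.degree := degree_sub_single hi
        have := hf.2 i m hm
        rw [map_add]; omega
    · push Not at hb
      exact Submodule.mem_sup_left (Submodule.subset_span ⟨fun i => ⟨a i, hb i⟩, by
        simp only; congr; ext i; simp⟩)
  have hq : q ∈ S := by
    rw [q.as_sum]
    refine S.sum_mem fun m _ => ?_
    rw [← mul_one (q.coeff m), ← smul_eq_mul, ← smul_monomial]
    exact S.smul_mem _ (hmono m)
  obtain ⟨s, hs, r, hr, hsr⟩ := Submodule.mem_sup.1 hq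
  obtain ⟨c, hc⟩ := (Submodule.mem_span_range_iff_exists_fun O).1 hs
  refine ⟨c, ?_⟩
  have e : ∑ a, monomial (smallExp a) (c a) = s := by
    rw [← hc]
    simp [smul_monomial]
  rw [e, ← hsr, add_sub_cancel_left]
  exact hr

/-- The complementary exponent. -/
def revExp (a : Fin n → Fin D) : Fin n → Fin D := fun i => (a i).rev

theorem revExp_revExp (a : Fin n → Fin D) : revExp (revExp a) = a := by
  funext i; simp [revExp]

variable (f D) in
/-- The pairing matrix. -/
def pairMat : Matrix (Fin n → Fin D) (Fin n → Fin D) O :=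
  Matrix.of fun a b => lamMono f D (smallExp (revExp a) + smallExp b)

theorem pairMat_det (hf : IsMonicSys f D) : (pairMat f D).det = 1 := by
  classical
  have hdeg : ∀ a b : Fin n → Fin D, (smallExp (revExp a) + smallExp b).degree + ∑ i, (a i : ℕ) =
      n * (D - 1) + ∑ i, (b i : ℕ) := by
    intro a b
    rw [map_add, smallExp_degree, smallExp_degree]
    have : ∑ i, ((revExp a i : ℕ)) + ∑ i, (a i : ℕ) = n * (D - 1) := by
      have h' : ∀ i, (revExp a i : ℕ) + (a i : ℕ) = D - 1 := fun i => by
        simp [revExp, Fin.val_rev]; omega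
      simp [← Finset.sum_add_distrib, h']
    omega
  have hbt : (pairMat f D).BlockTriangular fun a => ∑ i, (a i : ℕ) := by
    intro a b hab
    simp only at hab
    have := hdeg a b
    refine lamMono_eq_zero hf (by omega) fun hall => ?_
    have := degree_eq_top hall
    omega
  rw [hbt.det]
  refine Finset.prod_eq_one fun d _ => ?_
  rw [show (pairMat f D).toSquareBlock (fun a => ∑ i, (a i : ℕ)) d = 1 from ?_, Matrix.det_one]
  ext a b
  rw [Matrix.toSquareBlock_def, Matrix.of_apply, Matrix.one_apply]
  rcases eq_or_ne a b with rfl | hne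
  · rw [if_pos rfl]
    refine lamMono_top fun i => ?_
    simp [revExp, Fin.val_rev]; omega
  · rw [if_neg hne]
    have := hdeg a.1 b.1
    have ha := a.2
    have hb := b.2
    change (∑ i, (a.1 i : ℕ)) = d at ha
    change (∑ i, (b.1 i : ℕ)) = d at hb
    refine lamMono_eq_zero hf (by omega) fun hall => hne (Subtype.ext (funext fun i => Fin.ext ?_))
    have := hall i
    simp [revExp, Fin.val_rev] at this
    omega

theorem topFun_pair_sum (c : (Fin n → Fin D) → O) (a : Fin n → Fin D) :
    topFun f D ((∑ b, monomial (smallExp b) (c b)) * monomial (smallExp (revExp a)) 1) =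
      (pairMat f D).mulVec c a := by
  rw [Finset.sum_mul, map_sum]
  refine Finset.sum_congr rfl fun b _ => ?_
  rw [monomial_mul, mul_one, topFun_monomial, add_comm (smallExp b), mul_comm]
  rfl

/-- The pairing is nondegenerate on the quotient. -/
theorem mem_relIdeal_of_topFun_mul (hf : IsMonicSys f D) {q : MvPolynomial (Fin n) O}
    (h : ∀ p, topFun f D (q * p) = 0) : q ∈ relIdeal f := by
  obtain ⟨c, hc⟩ := exists_sum_small_sub_mem hf q
  have h0 : (pairMat f D).mulVec c = 0 := by
    funext a
    have := topFun_eq_zero_of_mem hf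
      (Ideal.mul_mem_right (monomial (smallExp (revExp a)) 1) _ hc)
    rw [sub_mul, map_sub, h, zero_sub, neg_eq_zero, topFun_pair_sum] at this
    exact this
  have hinj := Matrix.mulVec_injective_of_isUnit
    ((Matrix.isUnit_iff_isUnit_det (pairMat f D)).2 (by rw [pairMat_det hf]; exact isUnit_one))
  have : c = 0 := hinj (by rw [h0, Matrix.mulVec_zero])
  simpa [this] using hc

/-- The pairing is perfect. -/
theorem exists_topFun_mul_eq (hf : IsMonicSys f D) (φ : MvPolynomial (Fin n) O →ₗ[O] O)
    (hφ : ∀ q ∈ relIdeal f, φ q = 0) : ∃ e, ∀ p, topFun f D (e * p) = φ p := by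
  let c : (Fin n → Fin D) → O := (pairMat f D)⁻¹.mulVec fun a => φ (monomial (smallExp (revExp a)) 1)
  refine ⟨∑ b, monomial (smallExp b) (c b), fun p => ?_⟩
  set e := ∑ b, monomial (smallExp b) (c b)
  have hsmall : ∀ a : Fin n → Fin D, topFun f D (e * monomial (smallExp a) 1) = φ (monomial (smallExp a) 1) := by
    intro a
    obtain ⟨a, rfl⟩ : ∃ a', revExp a' = a := ⟨revExp a, revExp_revExp a⟩
    rw [topFun_pair_sum]
    simp only [c, Matrix.mulVec_mulVec]
    rw [Matrix.mul_nonsing_inv _ (by rw [pairMat_det hf]; exact isUnit_one), Matrix.one_mulVec]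
  obtain ⟨d, hd⟩ := exists_sum_small_sub_mem hf p
  have h1 := topFun_eq_zero_of_mem hf (Ideal.mul_mem_left _ e hd)
  have h2 := hφ _ hd
  rw [map_sub, sub_eq_zero] at h2
  rw [mul_sub, map_sub, sub_eq_zero] at h1
  rw [h1, h2, Finset.mul_sum, map_sum, map_sum]
  refine Finset.sum_congr rfl fun a _ => ?_
  rw [← mul_one (d a), ← smul_eq_mul (d a) 1, ← smul_monomial, mul_smul_comm, map_smul, map_smul,
    hsmall]

theorem relIdeal_quotient_finite (hf : IsMonicSys f D) :
    Module.Finite O (MvPolynomial (Fin n) O ⧸ relIdeal f) := by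
  refine Module.Finite.of_surjective
    ((Ideal.Quotient.mkₐ O (relIdeal f)).toLinearMap ∘ₗ
      (Fintype.linearCombination O fun a : Fin n → Fin D => monomial (smallExp a) (1 : O))) ?_
  intro x
  obtain ⟨q, rfl⟩ := Ideal.Quotient.mk_surjective x
  obtain ⟨c, hc⟩ := exists_sum_small_sub_mem hf q
  refine ⟨c, ?_⟩
  simp only [LinearMap.comp_apply, AlgHom.toLinearMap_apply, Ideal.Quotient.mkₐ_eq_mk,
    Fintype.linearCombination_apply, smul_monomial, smul_eq_mul, mul_one]
  exact (Ideal.Quotient.eq.2 hc).symm

end Fermat.Agent.NumCrit
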